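/-
P-GENUS, GEN-12 (helper48): facts about the analytic `j`-function `j = E₄³/Δ`:
`SL(2,ℤ)`-invariance, holomorphy, surjectivity onto `ℂ`, and the orders of vanishing of
`j - j(z₀)` (1 at generic points, 2 at `i`, 3 at `ρ`).
-/
import Fermat.Agent.H23.BlueprintAn
import Fermat.Agent.H15.Ramanujan

set_option autoImplicit false

noncomputable section

open UpperHalfPlane ModularForm Filter
open scoped MatrixGroups Manifold Topology

namespace Fermat.Agent.H48

open Fermat.Agent.H23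

/-! ### Generalities -/

lemma analyticAt_comp_ofComplex {F : ℍ → ℂ} (hF : MDiff F) (z : ℍ) :
    AnalyticAt ℂ (F ∘ ofComplex) (z : ℂ) :=
  (UpperHalfPlane.mdifferentiable_iff.mp hF).analyticAt
    (isOpen_upperHalfPlaneSet.mem_nhds z.im_pos)

/-- The order of a simple zero. -/
lemma order_comp_eq_one {F : ℍ → ℂ} (hF : MDiff F) (z : ℍ) (h0 : F z = 0)
    (hd : deriv (F ∘ ofComplex) z ≠ 0) :
    meromorphicOrderAt (F ∘ ofComplex) (z : ℂ) = 1 := by
  have ha := analyticAt_comp_ofComplex hF z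
  rw [ha.meromorphicOrderAt_eq,
    ha.analyticOrderAt_eq_one_of_zero_deriv_ne_zero (by simpa using h0) hd]
  rfl

/-- Multiplying by `1/Δ` does not change orders. -/
lemma order_inv_discriminant_mul (G : ℂ → ℂ) (z : ℍ) :
    meromorphicOrderAt ((ModularForm.discriminant ∘ ofComplex)⁻¹ * G) (z : ℂ)
      = meromorphicOrderAt G (z : ℂ) := by
  have hΔ : MDiff ModularForm.discriminant := ModularFormClass.holo CuspForm.discriminant
  have ha := analyticAt_comp_ofComplex hΔ z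
  have h0 : (ModularForm.discriminant ∘ ofComplex) (z : ℂ) ≠ 0 := by
    simpa using ModularForm.discriminant_ne_zero z
  exact meromorphicOrderAt_mul_of_ne_zero (ha.inv h0) (by simpa using h0)

/-- A holomorphic function on `ℍ` which is not constant has open range. -/
lemma isOpen_range_of_mdiff {F : ℍ → ℂ} (hF : MDiff F) (hnc : ∃ z w : ℍ, F z ≠ F w) :
    IsOpen (Set.range F) := by
  have han : AnalyticOnNhd ℂ (F ∘ ofComplex) upperHalfPlaneSet := by
    intro z hz
    have := analyticAt_comp_ofComplex hF ⟨z, hz⟩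
    simpa using this
  have hU : IsPreconnected upperHalfPlaneSet := (convex_halfSpace_im_gt 0).isPreconnected
  have himg : (F ∘ ofComplex) '' upperHalfPlaneSet = Set.range F := by
    ext c
    constructor
    · rintro ⟨z, _, rfl⟩
      exact ⟨ofComplex z, rfl⟩
    · rintro ⟨z, rfl⟩
      exact ⟨(z : ℂ), z.im_pos, by simp⟩
  rcases han.is_constant_or_isOpen hU with ⟨w, hw⟩ | h
  · exfalso
    obtain ⟨z, z', hzz'⟩ := hnc
    apply hzz'
    have h1 := hw (z : ℂ) z.im_pos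
    have h2 := hw (z' : ℂ) z'.im_pos
    simp only [Function.comp_apply, ofComplex_apply] at h1 h2
    rw [h1, h2]
  · rw [← himg]
    exact h _ subset_rfl isOpen_upperHalfPlaneSet

/-! ### Transformation laws -/

lemma E4_smul (γ : SL(2, ℤ)) (z : ℍ) : E₄ (γ • z) = denom γ z ^ (4 : ℕ) * E₄ z := by
  have hγ : (γ : GL (Fin 2) ℝ) ∈ 𝒮ℒ := ⟨γ, rfl⟩
  have h4 := SlashInvariantForm.slash_action_eqn'' E₄ hγ z
  rw [ModularGroup.sl_moeb, h4]
  norm_cast

lemma E6_smul (γ : SL(2, ℤ)) (z : ℍ) : E₆ (γ • z) = denom γ z ^ (6 : ℕ) * E₆ z := by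
  have hγ : (γ : GL (Fin 2) ℝ) ∈ 𝒮ℒ := ⟨γ, rfl⟩
  have h4 := SlashInvariantForm.slash_action_eqn'' E₆ hγ z
  rw [ModularGroup.sl_moeb, h4]
  norm_cast

lemma discriminant_smul (γ : SL(2, ℤ)) (z : ℍ) :
    ModularForm.discriminant (γ • z) = denom γ z ^ (12 : ℕ) * ModularForm.discriminant z := by
  have hγ : (γ : GL (Fin 2) ℝ) ∈ 𝒮ℒ := ⟨γ, rfl⟩
  have h4 := SlashInvariantForm.slash_action_eqn'' CuspForm.discriminant hγ z
  simp only [CuspForm.coe_discriminant] at h4
  rw [ModularGroup.sl_moeb, h4]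
  norm_cast

/-! ### Invariance and holomorphy of `j` -/

lemma mdiff_jfun : MDiff jfun := by
  have h4 : MDiff (⇑E₄) := ModularFormClass.holo E₄
  have hΔ : MDiff ModularForm.discriminant := ModularFormClass.holo CuspForm.discriminant
  exact (h4.pow 3).div hΔ ModularForm.discriminant_ne_zero

lemma jfun_smul (γ : SL(2, ℤ)) (z : ℍ) : jfun (γ • z) = jfun z := by
  have hd : denom γ z ≠ 0 := denom_ne_zero _ _
  have hΔ0 := ModularForm.discriminant_ne_zero z
  unfold jfun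
  rw [E4_smul, discriminant_smul]
  field_simp

lemma analyticOnNhd_jfun : AnalyticOnNhd ℂ (jfun ∘ ofComplex) upperHalfPlaneSet := by
  intro z hz
  have := analyticAt_comp_ofComplex mdiff_jfun ⟨z, hz⟩
  simpa using this

/-! ### The point `i` -/

lemma S_smul_I : ModularGroup.S • (I : ℍ) = I := by
  rw [modular_S_smul]
  ext
  simp

lemma E6_I : E₆ I = 0 := by
  have h := E6_smul ModularGroup.S I
  rw [S_smul_I, ModularGroup.denom_S] at h
  have hI : ((I : ℍ) : ℂ) ^ 6 = -1 := by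
    rw [UpperHalfPlane.coe_I]
    have : Complex.I ^ 6 = (Complex.I ^ 2) ^ 3 := by ring
    rw [this, Complex.I_sq]; norm_num
  rw [hI] at h
  have : (2 : ℂ) * E₆ I = 0 := by linear_combination h
  simpa using this

lemma jfun_I : jfun I = 1728 := by
  have h := ModularForm.discriminant_eq_E₄_cube_sub_E₆_sq I
  have h0 := ModularForm.discriminant_ne_zero I
  rw [E6_I] at h
  unfold jfun
  rw [div_eq_iff h0, h]
  ring

lemma order_jfun_I :
    meromorphicOrderAt ((fun z => jfun z - 1728) ∘ ofComplex) ((I : ℍ) : ℂ) = 2 := by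
  have hE6 : MDiff (⇑E₆) := ModularFormClass.holo E₆
  have hfun : ((fun z => jfun z - 1728) ∘ ofComplex)
      = (ModularForm.discriminant ∘ ofComplex)⁻¹ * ((⇑E₆ ∘ ofComplex) ^ 2) := by
    ext w
    have h := ModularForm.discriminant_eq_E₄_cube_sub_E₆_sq (ofComplex w)
    have h0 := ModularForm.discriminant_ne_zero (ofComplex w)
    simp only [Function.comp_apply, Pi.mul_apply, Pi.inv_apply, Pi.pow_apply, jfun]
    field_simp
    rw [h]
    ring
  rw [hfun, order_inv_discriminant_mul,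
    meromorphicOrderAt_pow (analyticAt_comp_ofComplex hE6 I).meromorphicAt,
    order_comp_eq_one hE6 I E6_I (Fermat.Agent.H15.deriv_E6_ne_zero I E6_I)]
  rfl

/-! ### The point `ρ` -/

/-- The point `ρ = (-1 + √3 i)/2`. -/
def rhoPt : ℍ := ⟨⟨-1 / 2, Real.sqrt 3 / 2⟩, by simp⟩

lemma rhoPt_sq : (rhoPt : ℂ) ^ 2 + (rhoPt : ℂ) + 1 = 0 := by
  have h3 : Real.sqrt 3 * Real.sqrt 3 = 3 := Real.mul_self_sqrt (by norm_num)
  apply Complex.ext
  · simp only [rhoPt, pow_two, Complex.add_re, Complex.mul_re, Complex.one_re, Complex.zero_re]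
    ring_nf
    nlinarith [h3]
  · simp only [rhoPt, pow_two, Complex.add_im, Complex.mul_im, Complex.one_im, Complex.zero_im]
    ring

lemma ST_smul_rhoPt : (ModularGroup.S * ModularGroup.T) • rhoPt = rhoPt := by
  rw [mul_smul, modular_T_smul, modular_S_smul]
  ext
  simp only [coe_vadd]
  apply inv_eq_of_mul_eq_one_right
  push_cast
  linear_combination -rhoPt_sq

lemma denom_ST (z : ℍ) :
    denom ((ModularGroup.S * ModularGroup.T : SL(2, ℤ)) : GL (Fin 2) ℝ) z = (z : ℂ) + 1 := by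
  rw [ModularGroup.denom_apply]
  simp [ModularGroup.S, ModularGroup.T, Matrix.mul_apply, Fin.sum_univ_two]

lemma E4_rhoPt : E₄ rhoPt = 0 := by
  have h := E4_smul (ModularGroup.S * ModularGroup.T) rhoPt
  rw [ST_smul_rhoPt, denom_ST] at h
  have hρ := rhoPt_sq
  have h1 : ((rhoPt : ℂ) + 1) ^ 4 = (rhoPt : ℂ) ^ 2 := by
    linear_combination ((rhoPt : ℂ) ^ 2 + 3 * (rhoPt : ℂ) + 1) * hρ
  rw [h1] at h
  have h2 : ((rhoPt : ℂ) ^ 2 - 1) * E₄ rhoPt = 0 := by linear_combination -h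
  rcases mul_eq_zero.mp h2 with h3 | h3
  · exfalso
    have h4 : (rhoPt : ℂ) = -2 := by linear_combination hρ - h3
    have h5 := congrArg Complex.im h4
    have h6 := rhoPt.im_pos
    simp at h5
    exact h6.ne' h5
  · exact h3

lemma jfun_rhoPt : jfun rhoPt = 0 := by
  unfold jfun
  rw [E4_rhoPt]
  simp

lemma order_jfun_rhoPt :
    meromorphicOrderAt (jfun ∘ ofComplex) ((rhoPt : ℍ) : ℂ) = 3 := by
  have hE4 : MDiff (⇑E₄) := ModularFormClass.holo E₄
  have hfun : (jfun ∘ ofComplex)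
      = (ModularForm.discriminant ∘ ofComplex)⁻¹ * ((⇑E₄ ∘ ofComplex) ^ 3) := by
    ext w
    simp only [Function.comp_apply, Pi.mul_apply, Pi.inv_apply, Pi.pow_apply, jfun]
    ring
  rw [hfun, order_inv_discriminant_mul,
    meromorphicOrderAt_pow (analyticAt_comp_ofComplex hE4 rhoPt).meromorphicAt,
    order_comp_eq_one hE4 rhoPt E4_rhoPt (Fermat.Agent.H15.deriv_E4_ne_zero rhoPt E4_rhoPt)]
  rfl

/-! ### Generic points -/

lemma order_jfun_generic (z₀ : ℍ) (h0 : jfun z₀ ≠ 0) (h1 : jfun z₀ ≠ 1728) :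
    meromorphicOrderAt ((fun z => jfun z - jfun z₀) ∘ ofComplex) (z₀ : ℂ) = 1 := by
  have hE4 : MDiff (⇑E₄) := ModularFormClass.holo E₄
  have hΔ : MDiff ModularForm.discriminant := ModularFormClass.holo CuspForm.discriminant
  have hΔ0 := ModularForm.discriminant_ne_zero z₀
  have hrel := ModularForm.discriminant_eq_E₄_cube_sub_E₆_sq z₀
  have h4 : E₄ z₀ ≠ 0 := by
    intro h
    apply h0
    rw [jfun, h]; simp
  have h6 : E₆ z₀ ≠ 0 := by
    intro h
    apply h1
    rw [h] at hrel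
    rw [jfun, div_eq_iff hΔ0, hrel]
    ring
  have ht' : E₄ z₀ ^ 3 = jfun z₀ * ModularForm.discriminant z₀ := by
    rw [jfun]; field_simp
  generalize jfun z₀ = t at ht' ⊢
  have hP : MDiff (fun w : ℍ => E₄ w ^ 3 - t * ModularForm.discriminant w) := by
    have : (fun w : ℍ => E₄ w ^ 3 - t * ModularForm.discriminant w)
      = (⇑E₄) ^ 3 - t • ModularForm.discriminant := by
      ext w; simp
    rw [this]
    exact (hE4.pow 3).sub (hΔ.const_smul t)
  have hfun : ((fun z => jfun z - t) ∘ ofComplex)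
      = (ModularForm.discriminant ∘ ofComplex)⁻¹ *
        ((fun w : ℍ => E₄ w ^ 3 - t * ModularForm.discriminant w) ∘ ofComplex) := by
    ext w
    have h0 := ModularForm.discriminant_ne_zero (ofComplex w)
    simp only [Function.comp_apply, Pi.mul_apply, Pi.inv_apply, jfun]
    field_simp
  rw [hfun, order_inv_discriminant_mul]
  exact order_comp_eq_one hP z₀ (by simp [ht']) (Fermat.Agent.H15.deriv_P_ne_zero z₀ h4 h6 t ht')

/-! ### Surjectivity -/

/-- `|j| → ∞` at `i∞`. -/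
lemma exists_im_le_lt_norm_jfun (R : ℝ) : ∃ A : ℝ, ∀ z : ℍ, A ≤ z.im → R < ‖jfun z‖ := by
  have h4 : ∀ᶠ z in atImInfty, (1 / 2 : ℝ) < ‖E₄ z‖ := by
    have := Fermat.Agent.H15.tendsto_E4.norm
    rw [norm_one] at this
    exact this.eventually (lt_mem_nhds (by norm_num))
  have hΔ : ∀ᶠ z in atImInfty, ‖ModularForm.discriminant z‖ < 1 / (8 * (|R| + 1)) := by
    have h : Tendsto ModularForm.discriminant atImInfty (𝓝 0) :=
      ModularForm.discriminant_isZeroAtImInfty
    have := h.norm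
    rw [norm_zero] at this
    exact this.eventually (gt_mem_nhds (by positivity))
  obtain ⟨A, hA⟩ := (atImInfty_mem _).mp (h4.and hΔ)
  refine ⟨A, fun z hz => ?_⟩
  obtain ⟨h1, h2⟩ := hA z hz
  have hΔ0 : 0 < ‖ModularForm.discriminant z‖ :=
    norm_pos_iff.mpr (ModularForm.discriminant_ne_zero z)
  have hR : 0 < |R| + 1 := by positivity
  have h3 : (1 / 8 : ℝ) < ‖E₄ z‖ ^ 3 := by
    have : (1 / 2 : ℝ) ^ 3 < ‖E₄ z‖ ^ 3 := by gcongr
    linarith
  have h5 : ‖ModularForm.discriminant z‖ * (8 * (|R| + 1)) < 1 := by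
    rwa [lt_div_iff₀ (by positivity)] at h2
  rw [jfun, norm_div, norm_pow, lt_div_iff₀ hΔ0]
  have h6 : R ≤ |R| := le_abs_self R
  nlinarith

/-- The distance from `a` to `j(z)` attains its minimum. -/
lemma exists_min_norm_jfun_sub (a : ℂ) : ∃ w : ℍ, ∀ z : ℍ, ‖jfun w - a‖ ≤ ‖jfun z - a‖ := by
  obtain ⟨A, hA⟩ := exists_im_le_lt_norm_jfun (‖jfun I - a‖ + ‖a‖)
  set B : ℝ := max A 1 with hB
  set K : Set ℂ := Set.Icc (-(1 / 2) : ℝ) (1 / 2) ×ℂ Set.Icc (1 / 2 : ℝ) B with hK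
  have hKc : IsCompact K := isCompact_Icc.reProdIm isCompact_Icc
  have hKU : K ⊆ upperHalfPlaneSet := by
    intro z hz
    have : (1 / 2 : ℝ) ≤ z.im := hz.2.1
    show 0 < z.im
    linarith
  have hIK : ((I : ℍ) : ℂ) ∈ K := by
    refine ⟨⟨?_, ?_⟩, ⟨?_, ?_⟩⟩ <;> simp [hB] <;> norm_num
  have hcont : ContinuousOn (fun z : ℂ => ‖(jfun ∘ ofComplex) z - a‖) K := by
    have := (analyticOnNhd_jfun.continuousOn).mono hKU
    exact (this.sub continuousOn_const).norm
  obtain ⟨x, hxK, hx⟩ := hKc.exists_isMinOn ⟨_, hIK⟩ hcont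
  refine ⟨⟨x, hKU hxK⟩, fun z => ?_⟩
  have hxI : ‖(jfun ∘ ofComplex) x - a‖ ≤ ‖jfun I - a‖ := by
    have h : ‖(jfun ∘ ofComplex) x - a‖ ≤ ‖(jfun ∘ ofComplex) ((I : ℍ) : ℂ) - a‖ := hx hIK
    have h2 : (jfun ∘ ofComplex) ((I : ℍ) : ℂ) = jfun I := by
      rw [Function.comp_apply, ofComplex_apply]
    rwa [h2] at h
  have hx' : ‖jfun ⟨x, hKU hxK⟩ - a‖ = ‖(jfun ∘ ofComplex) x - a‖ := by
    simp [ofComplex_apply_of_im_pos (hKU hxK)]
  rw [hx']
  obtain ⟨γ, hγ⟩ := ModularGroup.exists_smul_mem_fd z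
  rw [← jfun_smul γ z]
  set z' := γ • z with hz'
  have him : (1 / 2 : ℝ) ≤ z'.im := by
    have := ModularGroup.three_le_four_mul_im_sq_of_mem_fd hγ
    nlinarith [z'.im_pos]
  have hre : |z'.re| ≤ 1 / 2 := hγ.2
  by_cases hzB : z'.im ≤ B
  · have hz'K : (z' : ℂ) ∈ K := by
      refine ⟨⟨?_, ?_⟩, ⟨?_, ?_⟩⟩
      · have := (abs_le.mp hre).1
        simpa using this
      · have := (abs_le.mp hre).2
        simpa using this
      · simpa using him
      · simpa using hzB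
    have := hx hz'K
    simpa using this
  · have hzB := not_le.mp hzB
    have hAz : A ≤ z'.im := le_trans (le_max_left _ _) hzB.le
    have h1 := hA z' hAz
    have h2 : ‖jfun z'‖ ≤ ‖jfun z' - a‖ + ‖a‖ := by
      have := norm_add_le (jfun z' - a) a
      simpa using this
    linarith

lemma jfun_surjective (a : ℂ) : ∃ z : ℍ, jfun z = a := by
  obtain ⟨w, hw⟩ := exists_min_norm_jfun_sub a
  refine ⟨w, ?_⟩
  by_contra hne
  have hopen : IsOpen (Set.range jfun) := by
    apply isOpen_range_of_mdiff mdiff_jfun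
    obtain ⟨A, hA⟩ := exists_im_le_lt_norm_jfun (‖jfun w‖)
    refine ⟨⟨⟨0, max A 1⟩, by simp⟩, w, fun h => ?_⟩
    have := hA ⟨⟨0, max A 1⟩, by simp⟩ (le_max_left _ _)
    rw [h] at this
    exact lt_irrefl _ this
  obtain ⟨ε, hε, hball⟩ := Metric.isOpen_iff.mp hopen (jfun w) ⟨w, rfl⟩
  have hpos : 0 < ‖a - jfun w‖ := norm_pos_iff.mpr (sub_ne_zero.mpr (Ne.symm hne))
  set t : ℝ := min (1 / 2) (ε / (2 * ‖a - jfun w‖)) with ht
  have ht0 : 0 < t := lt_min (by norm_num) (by positivity)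
  have ht1 : t ≤ 1 / 2 := min_le_left _ _
  have ht2 : t * ‖a - jfun w‖ ≤ ε / 2 := by
    have : t ≤ ε / (2 * ‖a - jfun w‖) := min_le_right _ _
    calc t * ‖a - jfun w‖ ≤ ε / (2 * ‖a - jfun w‖) * ‖a - jfun w‖ := by gcongr
      _ = ε / 2 := by field_simp
  have hp : jfun w + (t : ℂ) * (a - jfun w) ∈ Metric.ball (jfun w) ε := by
    rw [Metric.mem_ball, dist_eq_norm]
    have : jfun w + (t : ℂ) * (a - jfun w) - jfun w = (t : ℂ) * (a - jfun w) := by ring
    rw [this, norm_mul, Complex.norm_real, Real.norm_of_nonneg ht0.le]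
    linarith
  obtain ⟨z, hz⟩ := hball hp
  have h1 := hw z
  rw [hz] at h1
  have h2 : jfun w + (t : ℂ) * (a - jfun w) - a = ((1 - t : ℝ) : ℂ) * (jfun w - a) := by
    push_cast; ring
  rw [h2, norm_mul, Complex.norm_real, Real.norm_of_nonneg (by linarith)] at h1
  have h3 : ‖jfun w - a‖ = ‖a - jfun w‖ := norm_sub_rev _ _
  rw [h3] at h1
  nlinarith

/-! ### The package -/

/-- **GEN-12 / AN-J**: the facts about the analytic `j`-function. -/
theorem jFacts : Fermat.Agent.H23.JFactsStatement :=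
  ⟨jfun_smul, mdiff_jfun, jfun_surjective, order_jfun_generic,
    ⟨I, S_smul_I, jfun_I, order_jfun_I⟩,
    ⟨rhoPt, ST_smul_rhoPt, jfun_rhoPt, order_jfun_rhoPt⟩⟩

end Fermat.Agent.H48

end
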