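/-
P-S14, C2 (helper48), abstract part: a finite group of order prime to `p` acting on a finite
abelian group with a nonzero `p`-torsion eigenvector admits a nonzero equivariant homomorphism
to `ℤ/p` with the same eigencharacter.
-/
import Mathlib

set_option autoImplicit false

namespace Fermat.Agent.H48

/-- In a finite abelian group, a nonzero element killed by `p` is not divisible by arbitrarily
high powers of `p`. -/
lemma exists_not_mem_range_pow_nsmul {p : ℕ} (hp : p.Prime) {M : Type*} [AddCommGroup M]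
    [Finite M] (x : M) (hx : x ≠ 0) (hpx : p • x = 0) :
    ∃ j : ℕ, x ∉ (nsmulAddMonoidHom (α := M) (p ^ j)).range := by
  refine ⟨Nat.card M, ?_⟩
  rintro ⟨y, hy⟩
  simp only [nsmulAddMonoidHom_apply] at hy
  apply hx
  -- the order of `y` is a power of `p`, at most `card M`
  have h1 : p ^ (Nat.card M + 1) • y = 0 := by
    rw [pow_succ', mul_smul, hy, hpx]
  have h2 : addOrderOf y ∣ p ^ (Nat.card M + 1) := addOrderOf_dvd_of_nsmul_eq_zero h1
  obtain ⟨t, -, ht⟩ := (Nat.dvd_prime_pow hp).mp h2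
  have h3 : addOrderOf y ≤ Nat.card M := addOrderOf_le_card
  have h4 : t ≤ Nat.card M := by
    by_contra hcon
    have hlt : Nat.card M < t := not_le.mp hcon
    have : Nat.card M < p ^ t := lt_of_lt_of_le hlt (Nat.lt_pow_self hp.one_lt).le
    rw [ht] at h3
    omega
  have h5 : addOrderOf y ∣ p ^ Nat.card M := by
    rw [ht]; exact pow_dvd_pow p h4
  rw [← hy]
  exact addOrderOf_dvd_iff_nsmul_eq_zero.mp h5

/-- Existence of a separating functional: if `S ≤ M` contains `p M` and `y ∉ S`, there is a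
homomorphism `M → ℤ/p` killing `S` and not `y`. -/
lemma exists_hom_zmod_of_not_mem {p : ℕ} [Fact p.Prime] {M : Type*} [AddCommGroup M]
    (S : AddSubgroup M) (hS : ∀ c : M, p • c ∈ S) (y : M) (hy : y ∉ S) :
    ∃ ψ : M →+ ZMod p, (∀ s ∈ S, ψ s = 0) ∧ ψ y ≠ 0 := by
  let _inst : Module (ZMod p) (M ⧸ S) := QuotientAddGroup.zmodModule hS
  have hy' : (QuotientAddGroup.mk' S y) ≠ 0 := by
    intro h
    exact hy ((QuotientAddGroup.eq_zero_iff y).mp h)
  have hfree : Module.Free (ZMod p) (M ⧸ S) := Module.Free.of_divisionRing (ZMod p) (M ⧸ S)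
  have hproj : Module.Projective (ZMod p) (M ⧸ S) :=
    @Module.Projective.of_free (ZMod p) _ (M ⧸ S) _ _ hfree
  obtain ⟨f, hf⟩ := @Module.Projective.exists_dual_ne_zero (M ⧸ S) _ (ZMod p) _ _ hproj _ hy'
  refine ⟨f.toAddMonoidHom.comp (QuotientAddGroup.mk' S), fun s hs => ?_, hf⟩
  have : QuotientAddGroup.mk' S s = 0 := (QuotientAddGroup.eq_zero_iff s).mpr hs
  simp only [AddMonoidHom.coe_comp, Function.comp_apply, this, map_zero]

/-- **Abstract form of C2.** Let a finite group `G` of order prime to `p` act on a finite abelian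
group `M`, let `χ : G → (ℤ/p)ˣ` be a character and `x ≠ 0` a `p`-torsion `χ`-eigenvector. Then
there is a nonzero `χ`-equivariant homomorphism `M → ℤ/p`. -/
theorem exists_eigen_hom_zmod {p : ℕ} [Fact p.Prime] {G M : Type*} [Group G] [Fintype G]
    [AddCommGroup M] [Finite M]
    (act : G → M →+ M) (hact : ∀ σ τ m, act (σ * τ) m = act σ (act τ m))
    (hG : ¬ p ∣ Fintype.card G) (χ : G →* (ZMod p)ˣ)
    (x : M) (hx : x ≠ 0) (hpx : p • x = 0)
    (hσ : ∀ σ : G, act σ x = ((χ σ : ZMod p).val) • x) :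
    ∃ φ : M →+ ZMod p, φ ≠ 0 ∧ ∀ (σ : G) (c : M), φ (act σ c) = (χ σ : ZMod p) * φ c := by
  classical
  have hp : p.Prime := Fact.out
  -- choose `i` maximal with `x ∈ p^i M`
  have hex := exists_not_mem_range_pow_nsmul hp x hx hpx
  have hj := Nat.find_spec hex
  set j := Nat.find hex with hjdef
  have hj0 : j ≠ 0 := by
    intro h0
    apply hj
    rw [h0]
    exact ⟨x, by simp⟩
  obtain ⟨i, hi⟩ : ∃ i, j = i + 1 := Nat.exists_eq_succ_of_ne_zero hj0
  have hxi : x ∈ (nsmulAddMonoidHom (α := M) (p ^ i)).range := by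
    have := Nat.find_min hex (m := i) (by omega)
    exact not_not.mp this
  obtain ⟨y, hy⟩ := hxi
  simp only [nsmulAddMonoidHom_apply] at hy
  rw [hi] at hj
  -- the subgroup `S`
  set S : AddSubgroup M :=
    (nsmulAddMonoidHom (α := M) (p ^ (i + 1))).range.comap (nsmulAddMonoidHom (α := M) (p ^ i))
    with hSdef
  have hS : ∀ c : M, p • c ∈ S := by
    intro c
    refine ⟨c, ?_⟩
    simp only [nsmulAddMonoidHom_apply]
    rw [pow_succ, mul_smul]
  have hyS : y ∉ S := by
    intro h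
    apply hj
    have : (nsmulAddMonoidHom (α := M) (p ^ i)) y ∈
        (nsmulAddMonoidHom (α := M) (p ^ (i + 1))).range := h
    simpa [hy] using this
  obtain ⟨ψ, hψS, hψy⟩ := exists_hom_zmod_of_not_mem S hS y hyS
  -- `y` is an eigenvector modulo `S`
  have hyσ : ∀ σ : G, ψ (act σ y) = (χ σ : ZMod p) * ψ y := by
    intro σ
    have hmem : act σ y - ((χ σ : ZMod p).val) • y ∈ S := by
      show (nsmulAddMonoidHom (α := M) (p ^ i)) (act σ y - ((χ σ : ZMod p).val) • y) ∈
        (nsmulAddMonoidHom (α := M) (p ^ (i + 1))).range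
      have : (nsmulAddMonoidHom (α := M) (p ^ i)) (act σ y - ((χ σ : ZMod p).val) • y) = 0 := by
        simp only [nsmulAddMonoidHom_apply, smul_sub]
        rw [← map_nsmul (act σ), hy, hσ σ, smul_comm, hy, sub_self]
      rw [this]
      exact zero_mem _
    have h0 := hψS _ hmem
    rw [map_sub, sub_eq_zero, map_nsmul, nsmul_eq_mul, ZMod.natCast_val, ZMod.cast_id] at h0
    exact h0
  -- the averaged functional
  let φ : M →+ ZMod p :=
    ∑ σ : G, (AddMonoidHom.mulLeft (((χ σ)⁻¹ : (ZMod p)ˣ) : ZMod p)).comp (ψ.comp (act σ))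
  have hφ : ∀ c, φ c = ∑ σ : G, (((χ σ)⁻¹ : (ZMod p)ˣ) : ZMod p) * ψ (act σ c) := by
    intro c
    simp only [φ, AddMonoidHom.finsetSum_apply, AddMonoidHom.coe_comp, Function.comp_apply,
      AddMonoidHom.coe_mulLeft]
  refine ⟨φ, ?_, ?_⟩
  · intro h0
    have h1 : φ y = 0 := by rw [h0]; rfl
    rw [hφ] at h1
    have h2 : ∀ σ : G, (((χ σ)⁻¹ : (ZMod p)ˣ) : ZMod p) * ψ (act σ y) = ψ y := by
      intro σ
      rw [hyσ σ, ← mul_assoc, Units.inv_mul, one_mul]
    simp only [h2, Finset.sum_const, Finset.card_univ, nsmul_eq_mul] at h1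
    rcases mul_eq_zero.mp h1 with h3 | h3
    · exact hG ((ZMod.natCast_eq_zero_iff _ _).mp h3)
    · exact hψy h3
  · intro τ c
    rw [hφ, hφ, Finset.mul_sum]
    rw [← Equiv.sum_comp (Equiv.mulRight τ)
      (fun ρ : G => (χ τ : ZMod p) * ((((χ ρ)⁻¹ : (ZMod p)ˣ) : ZMod p) * ψ (act ρ c)))]
    refine Finset.sum_congr rfl fun σ _ => ?_
    simp only [Equiv.coe_mulRight, map_mul, mul_inv_rev, Units.val_mul, hact]
    rw [← mul_assoc, ← mul_assoc, Units.mul_inv, one_mul]

end Fermat.Agent.H48
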