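/-
P-S14, C2 (helper48): a nontrivial `p`-torsion ideal class in the `ω²`-eigenspace of the class
group of `ℚ(ζ_p)` yields a nontrivial character `Cl → ℤ/p` of type `ω²`.
-/
import Fermat.Agent.H13.S14Interfaces
import Fermat.Agent.H48.S14EigenHom

set_option autoImplicit false

open scoped NumberField nonZeroDivisors

namespace Fermat.Agent.H48

open Fermat.Agent.H13

section

variable (K : Type) [Field K] [NumberField K]

lemma sigmaO_mul (σ τ : K ≃ₐ[ℚ] K) : sigmaO K (σ * τ) = (sigmaO K τ).trans (sigmaO K σ) := by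
  ext x
  rfl

lemma sigmaCl_mul (σ τ : K ≃ₐ[ℚ] K) (c : ClassGroup (𝓞 K)) :
    sigmaCl K (σ * τ) c = sigmaCl K σ (sigmaCl K τ c) := by
  unfold sigmaCl
  rw [sigmaO_mul, ClassGroup.mulEquiv_trans_apply]

end

/-- powers of an element of order dividing `p` only depend on the exponent modulo `p`. -/
lemma pow_eq_pow_of_natCast_eq {A : Type*} [Monoid A] {p : ℕ} {x : A} (hx : x ^ p = 1)
    {m n : ℕ} (h : (m : ZMod p) = (n : ZMod p)) : x ^ m = x ^ n := by
  rw [pow_eq_pow_mod m hx, pow_eq_pow_mod n hx]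
  congr 1
  exact (ZMod.natCast_eq_natCast_iff' m n p).mp h

/-- for a primitive `p`-th root of unity, `ζ^m = ζ^n` forces `m ≡ n mod p`. -/
lemma natCast_eq_of_pow_eq {A : Type*} [CommMonoid A] {p : ℕ} {ζ : A} (hζ : IsPrimitiveRoot ζ p)
    (hp : 0 < p) {m n : ℕ} (h : ζ ^ m = ζ ^ n) : (m : ZMod p) = (n : ZMod p) := by
  rw [pow_eq_pow_mod m hζ.pow_eq_one, pow_eq_pow_mod n hζ.pow_eq_one] at h
  have := hζ.pow_inj (Nat.mod_lt m hp) (Nat.mod_lt n hp) h
  exact (ZMod.natCast_eq_natCast_iff' m n p).mpr this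

/-- **C2**: a nontrivial `p`-torsion class in the `ω²`-eigenspace yields a nontrivial character
of type `ω²`. -/
theorem classChar : Fermat.Agent.H13.ClassCharStatement := by
  intro p _ K _ _ _ ζ hζ x hx1 hxp hxσ
  classical
  have hp : p.Prime := Fact.out
  have _instNZ : NeZero p := ⟨hp.ne_zero⟩
  -- the cyclotomic character and its square
  let ω : (K ≃ₐ[ℚ] K) →* (ZMod p)ˣ := hζ.autToPow ℚ
  let χ : (K ≃ₐ[ℚ] K) →* (ZMod p)ˣ := (powMonoidHom 2).comp ω
  have hχ : ∀ σ, (χ σ : ZMod p) = (ω σ : ZMod p) ^ 2 := fun σ => by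
    simp [χ]
  have hω : ∀ (σ : K ≃ₐ[ℚ] K) (k : ℕ), σ ζ = ζ ^ k → (ω σ : ZMod p) = (k : ZMod p) := by
    intro σ k hk
    have h1 : ζ ^ (ω σ : ZMod p).val = ζ ^ k := by
      rw [← hk]; exact hζ.autToPow_spec ℚ σ
    have h2 := natCast_eq_of_pow_eq hζ hp.pos h1
    rwa [ZMod.natCast_val, ZMod.cast_id] at h2
  have hχk : ∀ (σ : K ≃ₐ[ℚ] K) (k : ℕ), σ ζ = ζ ^ k →
      (((χ σ : ZMod p).val : ℕ) : ZMod p) = ((k ^ 2 : ℕ) : ZMod p) := by
    intro σ k hk
    rw [ZMod.natCast_val, ZMod.cast_id, hχ, hω σ k hk]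
    push_cast
    rfl
  -- the group and its action
  let act : (K ≃ₐ[ℚ] K) → Additive (ClassGroup (𝓞 K)) →+ Additive (ClassGroup (𝓞 K)) :=
    fun σ => MonoidHom.toAdditive (sigmaCl K σ).toMonoidHom
  have hact : ∀ σ τ m, act (σ * τ) m = act σ (act τ m) := by
    intro σ τ m
    exact congrArg Additive.ofMul (sigmaCl_mul K σ τ m.toMul)
  have hG : ¬ p ∣ Fintype.card (K ≃ₐ[ℚ] K) := by
    have hinj : Function.Injective ω := hζ.autToPow_injective ℚ
    have hle := Fintype.card_le_of_injective ω hinj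
    rw [ZMod.card_units_eq_totient, Nat.totient_prime hp] at hle
    intro hdvd
    have hpos : 0 < Fintype.card (K ≃ₐ[ℚ] K) := Fintype.card_pos
    have := Nat.le_of_dvd hpos hdvd
    have := hp.pos
    omega
  have hx0 : (Additive.ofMul x) ≠ 0 := fun h => hx1 (by simpa using h)
  have hpx : p • (Additive.ofMul x) = 0 := by
    rw [← ofMul_pow, hxp]; rfl
  have hσx : ∀ σ : K ≃ₐ[ℚ] K, act σ (Additive.ofMul x) =
      ((χ σ : ZMod p).val) • (Additive.ofMul x) := by
    intro σ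
    have hk : σ ζ = ζ ^ (ω σ : ZMod p).val := (hζ.autToPow_spec ℚ σ).symm
    have h1 := hxσ σ _ hk
    have h2 : x ^ ((ω σ : ZMod p).val ^ 2) = x ^ ((χ σ : ZMod p).val) :=
      pow_eq_pow_of_natCast_eq hxp (hχk σ _ hk).symm
    rw [← ofMul_pow, ← h2, ← h1]
    rfl
  obtain ⟨φ, hφ0, hφ⟩ := exists_eigen_hom_zmod act hact hG χ (Additive.ofMul x) hx0 hpx hσx
  refine ⟨AddMonoidHom.toMultiplicativeRight φ, ?_, ?_⟩
  · intro h
    apply hφ0
    refine AddMonoidHom.ext fun m => ?_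
    have := congrArg (fun f : ClassGroup (𝓞 K) →* Multiplicative (ZMod p) =>
      f (Additive.toMul m)) h
    exact congrArg Multiplicative.toAdd this
  · intro σ k hk c
    have h1 := hφ σ (Additive.ofMul c)
    have h2 : (χ σ : ZMod p) = ((k ^ 2 : ℕ) : ZMod p) := by
      have := hχk σ k hk
      rwa [ZMod.natCast_val, ZMod.cast_id] at this
    show Multiplicative.ofAdd (φ (act σ (Additive.ofMul c))) =
      (Multiplicative.ofAdd (φ (Additive.ofMul c))) ^ (k ^ 2)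
    rw [h1, h2, ← ofAdd_nsmul, nsmul_eq_mul]

end Fermat.Agent.H48
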