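import Fermat.Agent.H48.QCoeff

/-!
# The integral lattice, finiteness of the space of cusp forms and of the Hecke algebra
-/

set_option autoImplicit false

namespace Fermat.Agent.H48

open CongruenceSubgroup ModularFormClass UpperHalfPlane

variable {N : ℕ} {k : ℤ}

theorem mem_intLattice_iff (f : CuspForm (Gamma0 N) k) :
    f ∈ CuspForm.intLattice N k ↔ ∀ n : ℕ, ∃ m : ℤ, qCoeff ⇑f n = (m : ℂ) :=
  P2MW.S_CuspForm_intLattice_fg.W3WsD.mem_intLattice_iff f

theorem mem_qIntegralSet_iff (f : CuspForm (Gamma0 N) 2) :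
    f ∈ CuspForm.qIntegralSet N ↔ ∀ n : ℕ, ∃ m : ℤ, qCoeff ⇑f n = (m : ℂ) := by
  simp only [CuspForm.qIntegralSet, Set.mem_setOf_eq, Subring.mem_bot]
  constructor
  · intro h n
    obtain ⟨m, hm⟩ := h n
    exact ⟨m, hm.symm⟩
  · intro h n
    obtain ⟨m, hm⟩ := h n
    exact ⟨m, hm.symm⟩

theorem mem_qIntegralSet_iff_mem_intLattice (f : CuspForm (Gamma0 N) 2) :
    f ∈ CuspForm.qIntegralSet N ↔ f ∈ CuspForm.intLattice N 2 := by
  rw [mem_qIntegralSet_iff, mem_intLattice_iff]

theorem qIntegralSet_eq_intLattice (N : ℕ) :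
    CuspForm.qIntegralSet N = (CuspForm.intLattice N 2 : Set (CuspForm (Gamma0 N) 2)) := by
  ext f
  exact mem_qIntegralSet_iff_mem_intLattice f

theorem span_intLattice_eq_top (h : CuspForm.HasIntegralBasis N) :
    Submodule.span ℂ (CuspForm.intLattice N 2 : Set (CuspForm (Gamma0 N) 2)) = ⊤ := by
  rw [← qIntegralSet_eq_intLattice]
  exact h

theorem finite_of_hasIntegralBasis [NeZero N] (h : CuspForm.HasIntegralBasis N) :
    Module.Finite ℂ (CuspForm (Gamma0 N) 2) := by
  obtain ⟨S, hS⟩ := CuspForm.intLattice_fg N 2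
  rw [Module.finite_def]
  refine ⟨S, ?_⟩
  rw [← span_intLattice_eq_top h, ← hS, Submodule.span_span_of_tower]

/-- The Hecke algebra (generated by all `T_ℓ`, `ℓ ∤ N` and all `U_q`, `q ∣ N`). -/
noncomputable abbrev heckeAlg (N : ℕ) [NeZero N] :
    Subalgebra ℤ (Module.End ℂ (CuspForm (Gamma0 N) 2)) :=
  CuspForm.heckeAlgebra N 2 ∅

theorem heckeAlg_mem_intLattice [NeZero N] (T : heckeAlg N) {f : CuspForm (Gamma0 N) 2}
    (hf : f ∈ CuspForm.intLattice N 2) :
    (T : Module.End ℂ (CuspForm (Gamma0 N) 2)) f ∈ CuspForm.intLattice N 2 :=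
  CuspForm.mem_intLattice_of_mem_heckeAlgebra (by norm_num) T.2 hf

/-- Restriction of Hecke operators to the integral lattice. -/
noncomputable def resLattice (N : ℕ) [NeZero N] :
    heckeAlg N →ₗ[ℤ] Module.End ℤ (CuspForm.intLattice N 2) where
  toFun T := ((T : Module.End ℂ (CuspForm (Gamma0 N) 2)).restrictScalars ℤ).restrict
    (fun _ hx => heckeAlg_mem_intLattice T hx)
  map_add' T₁ T₂ := by
    ext x
    rfl
  map_smul' c T := by
    ext x
    rfl

theorem resLattice_injective [NeZero N] (h : CuspForm.HasIntegralBasis N) :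
    Function.Injective (resLattice N) := by
  rw [injective_iff_map_eq_zero]
  intro T hT
  apply Subtype.ext
  apply LinearMap.ext_on (span_intLattice_eq_top h)
  intro f hf
  have := congrArg (fun φ : Module.End ℤ (CuspForm.intLattice N 2) => (φ ⟨f, hf⟩ : CuspForm (Gamma0 N) 2)) hT
  simpa [resLattice] using this

theorem finite_heckeAlg [NeZero N] (h : CuspForm.HasIntegralBasis N) :
    Module.Finite ℤ (heckeAlg N) := by
  have : Module.Finite ℤ (CuspForm.intLattice N 2) :=
    Module.Finite.iff_fg.mpr (CuspForm.intLattice_fg N 2)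
  have : IsAddTorsionFree (CuspForm (Gamma0 N) 2) := IsAddTorsionFree.of_isTorsionFree ℂ _
  have : Module.IsTorsionFree ℤ (CuspForm.intLattice N 2) := inferInstance
  have : Module.Free ℤ (CuspForm.intLattice N 2) := inferInstance
  have : Module.Finite ℤ (Module.End ℤ (CuspForm.intLattice N 2)) := inferInstance
  exact Module.Finite.of_injective (resLattice N) (resLattice_injective h)

theorem isIntegral_heckeAlg [NeZero N] (h : CuspForm.HasIntegralBasis N) (T : heckeAlg N) :
    IsIntegral ℤ T := by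
  have := finite_heckeAlg h
  exact IsIntegral.of_finite ℤ T

end Fermat.Agent.H48
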