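import Mathlib
import Fermat.Prelude.Def_CuspForm_IntegralLattice
import Fermat.Prelude.Def_FLTPrelim_Modularity
import Fermat.Prelude.Def_CuspForm_HeckeAlgebra
import Fermat.Prelude.Def_CuspForm_IntegralStructure
import Fermat.Prelude.Thm_CuspForm_intLattice_fg
import Fermat.Prelude.Thm_CuspForm_mem_intLattice_of_mem_heckeAlgebra
import Fermat.Prelude.Thm_ModularFormClass_qCoeff_heckeT
import Fermat.Prelude.Thm_ModularFormClass_qCoeff_heckeU
import Fermat.Prelude.Thm_CongruenceSubgroup_one_mem_strictPeriods_Gamma0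

/-!
# Basic facts on `q`-coefficients of cusp forms of level `Γ₀(N)`
-/

set_option autoImplicit false

namespace Fermat.Agent.H48

open CongruenceSubgroup ModularFormClass UpperHalfPlane

variable {N : ℕ} {k : ℤ}

theorem one_mem_strictPeriods (N : ℕ) :
    (1 : ℝ) ∈ (Subgroup.map (Matrix.SpecialLinearGroup.mapGL ℝ) (Gamma0 N)).strictPeriods :=
  CongruenceSubgroup.one_mem_strictPeriods_Gamma0 N

theorem qCoeff_add (f g : CuspForm (Gamma0 N) k) (n : ℕ) :
    qCoeff ⇑(f + g) n = qCoeff ⇑f n + qCoeff ⇑g n := by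
  simp only [qCoeff, FunLike.coe_add]
  rw [ModularForm.qExpansion_add one_pos (one_mem_strictPeriods N) f g, map_add]

theorem qCoeff_zero (n : ℕ) : qCoeff ⇑(0 : CuspForm (Gamma0 N) k) n = 0 := by
  simp only [qCoeff, FunLike.coe_zero]
  rw [UpperHalfPlane.qExpansion_zero, map_zero]

theorem qCoeff_smul (c : ℂ) (f : CuspForm (Gamma0 N) k) (n : ℕ) :
    qCoeff ⇑(c • f) n = c * qCoeff ⇑f n := by
  have h1 : ⇑(c • f) = c • ⇑f := by
    ext z
    simp
  simp only [qCoeff, h1]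
  rw [ModularForm.qExpansion_smul one_pos (one_mem_strictPeriods N) c f]
  simp

theorem qCoeff_zsmul (c : ℤ) (f : CuspForm (Gamma0 N) k) (n : ℕ) :
    qCoeff ⇑(c • f) n = c * qCoeff ⇑f n := by
  have h1 : c • f = (c : ℂ) • f := by
    ext z
    simp
  rw [h1, qCoeff_smul]

theorem qCoeff_neg (f : CuspForm (Gamma0 N) k) (n : ℕ) :
    qCoeff ⇑(-f) n = - qCoeff ⇑f n := by
  have h1 : -f = (-1 : ℂ) • f := by simp
  rw [h1, qCoeff_smul]
  ring

theorem qCoeff_sub (f g : CuspForm (Gamma0 N) k) (n : ℕ) :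
    qCoeff ⇑(f - g) n = qCoeff ⇑f n - qCoeff ⇑g n := by
  rw [sub_eq_add_neg, qCoeff_add, qCoeff_neg, ← sub_eq_add_neg]

theorem qCoeff_cusp_zero (f : CuspForm (Gamma0 N) k) : qCoeff ⇑f 0 = 0 := by
  simp only [qCoeff]
  exact CuspFormClass.qExpansion_coeff_zero f one_pos (one_mem_strictPeriods N)

theorem eq_zero_of_forall_qCoeff_eq_zero (f : CuspForm (Gamma0 N) k)
    (h : ∀ n, qCoeff ⇑f n = 0) : f = 0 := by
  have hq : qExpansion 1 ⇑f = 0 := by
    ext n
    simpa [qCoeff] using h n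
  have hcusp : IsCusp OnePoint.infty (Subgroup.map (Matrix.SpecialLinearGroup.mapGL ℝ) (Gamma0 N)) :=
    Subgroup.isCusp_of_mem_strictPeriods one_pos (one_mem_strictPeriods N)
  have : Fact (IsCusp OnePoint.infty (Subgroup.map (Matrix.SpecialLinearGroup.mapGL ℝ) (Gamma0 N))) :=
    ⟨hcusp⟩
  have h0 : (⇑f : ℍ → ℂ) = 0 :=
    (UpperHalfPlane.qExpansion_eq_zero_iff one_pos
      (SlashInvariantFormClass.periodic_comp_ofComplex f (one_mem_strictPeriods N))
      (ModularFormClass.holo f) (ModularFormClass.bdd_at_infty f)).mp hq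
  exact DFunLike.coe_injective (h0.trans FunLike.coe_zero.symm)

theorem qCoeff_heckeTLin {ℓ : ℕ} (hℓ : ℓ.Prime) (hℓN : ¬ ℓ ∣ N) (f : CuspForm (Gamma0 N) 2)
    (n : ℕ) :
    qCoeff ⇑(CuspForm.heckeTLin 2 hℓ hℓN f) n =
      qCoeff ⇑f (n * ℓ) + if ℓ ∣ n then (ℓ : ℂ) * qCoeff ⇑f (n / ℓ) else 0 := by
  rw [CuspForm.coe_heckeTLin_apply,
    ModularFormClass.qCoeff_heckeT f (one_mem_strictPeriods N) hℓ.ne_zero n,
    ModularForm.coeffHeckeT_apply]
  norm_num

theorem qCoeff_heckeULin [NeZero N] {q : ℕ} (hq : q.Prime) (hqN : q ∣ N)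
    (f : CuspForm (Gamma0 N) 2) (n : ℕ) :
    qCoeff ⇑(CuspForm.heckeULin 2 hqN f) n = qCoeff ⇑f (n * q) := by
  rw [CuspForm.coe_heckeULin_apply,
    ModularFormClass.qCoeff_heckeU f (one_mem_strictPeriods N) hq.ne_zero n,
    ModularForm.coeffHeckeU_apply]

end Fermat.Agent.H48
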