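import Mathlib
import Fermat.Agent.H3.FrobInterfaces

set_option autoImplicit false

/-!
# P-CHEB / FROB-C: Möbius inversion over the subgroups of a cyclic group
-/

namespace Fermat.Agent.H48

universe u

open ArithmeticFunction in
/-- `μ * id = φ`. -/
theorem sum_moebius_mul_div (n : ℕ) (hn : 0 < n) :
    ∑ d ∈ n.divisors, (ArithmeticFunction.moebius d : ℤ) * ((n / d : ℕ) : ℤ) =
      (Nat.totient n : ℤ) := by
  have h := (ArithmeticFunction.sum_eq_iff_sum_mul_moebius_eq
    (f := fun m => (Nat.totient m : ℤ)) (g := fun m => (m : ℤ))).mp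
    (fun m _ => by exact_mod_cast Nat.sum_totient m) n hn
  simp only [Int.cast_id] at h
  rw [Nat.sum_divisorsAntidiagonal (fun x y => (ArithmeticFunction.moebius x : ℤ) * (y : ℤ))] at h
  exact h

/-- `∑_{d ∣ m} μ(d) = [m = 1]`. -/
theorem sum_divisors_moebius_eq (m : ℕ) :
    ∑ d ∈ m.divisors, (ArithmeticFunction.moebius d : ℤ) = if m = 1 then 1 else 0 := by
  have h := congrArg (fun f : ArithmeticFunction ℤ => f m) ArithmeticFunction.moebius_mul_coe_zeta
  simp only [ArithmeticFunction.coe_mul_zeta_apply] at h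
  rw [h, ArithmeticFunction.one_apply]

section group

variable {G : Type u} [Group G]

/-- membership of a power of `g` in the subgroup generated by `g ^ d`, `d ∣ orderOf g`. -/
theorem pow_mem_zpowers_pow_iff (g : G) {d : ℕ} (hd : d ∣ orderOf g) (j : ℕ) :
    g ^ j ∈ Subgroup.zpowers (g ^ d) ↔ d ∣ j := by
  constructor
  · intro h
    obtain ⟨z, hz⟩ := Subgroup.mem_zpowers_iff.mp h
    rw [← zpow_natCast, ← zpow_mul, ← zpow_natCast g j, zpow_eq_zpow_iff_modEq] at hz
    have h1 : (orderOf g : ℤ) ∣ (j : ℤ) - (d : ℤ) * z := hz.dvd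
    have h2 : (d : ℤ) ∣ (j : ℤ) - (d : ℤ) * z := (Int.natCast_dvd_natCast.mpr hd).trans h1
    have h3 : (d : ℤ) ∣ (j : ℤ) := by
      have := dvd_add h2 (dvd_mul_right (d : ℤ) z)
      simpa using this
    exact Int.natCast_dvd_natCast.mp h3
  · rintro ⟨i, rfl⟩
    rw [pow_mul]
    exact Subgroup.pow_mem _ (Subgroup.mem_zpowers _) _

theorem exists_coprime_pow_eq_iff (g : G) (j : ℕ) :
    (∃ k : ℕ, k.Coprime (orderOf g) ∧ g ^ j = g ^ k) ↔ Nat.gcd (orderOf g) j = 1 := by
  constructor
  · rintro ⟨k, hk, hjk⟩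
    have h := pow_eq_pow_iff_modEq.mp hjk
    rw [Nat.gcd_comm, h.gcd_eq]
    exact hk
  · intro h
    exact ⟨j, by rwa [Nat.coprime_iff_gcd_eq_one, Nat.gcd_comm], rfl⟩

/-- Fixed points of `τ` on `G ⧸ H` and conjugates of `τ` in `H`. -/
theorem card_mul_card_fixed (H : Subgroup G) (τ : G) :
    Nat.card H * Nat.card {x : G ⧸ H // τ • x = x} = Nat.card {h : G // h⁻¹ * τ * h ∈ H} := by
  classical
  let t : Set (G ⧸ H) := {x | τ • x = x}
  have e1 : {h : G // h⁻¹ * τ * h ∈ H} ≃ ↥((QuotientGroup.mk : G → G ⧸ H) ⁻¹' t) :=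
    Equiv.subtypeEquivRight fun h => by
      change h⁻¹ * τ * h ∈ H ↔ τ • (QuotientGroup.mk h : G ⧸ H) = QuotientGroup.mk h
      rw [MulAction.Quotient.smul_mk, eq_comm, QuotientGroup.eq, smul_eq_mul, mul_assoc]
  have e2 := QuotientGroup.preimageMkEquivSubgroupProdSet H t
  rw [Nat.card_congr (e1.trans e2), Nat.card_prod]
  rfl


variable [Finite G]

open scoped Classical in
/-- The Möbius sum over the subgroups `⟨g^d⟩` containing `y` detects the generators of `⟨g⟩`. -/
theorem sum_moebius_mem_zpowers (g y : G) :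
    ∑ d ∈ (orderOf g).divisors with y ∈ Subgroup.zpowers (g ^ d),
        (ArithmeticFunction.moebius d : ℤ) =
      if ∃ k : ℕ, k.Coprime (orderOf g) ∧ y = g ^ k then 1 else 0 := by
  classical
  have hn : 0 < orderOf g := orderOf_pos g
  by_cases hy : y ∈ Subgroup.zpowers g
  · obtain ⟨j, rfl⟩ : ∃ j : ℕ, g ^ j = y := by
      rw [← (isOfFinOrder_of_finite g).mem_powers_iff_mem_zpowers] at hy
      exact hy
    have hfilter : (orderOf g).divisors.filter (fun d => g ^ j ∈ Subgroup.zpowers (g ^ d)) =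
        (Nat.gcd (orderOf g) j).divisors := by
      ext d
      simp only [Finset.mem_filter, Nat.mem_divisors]
      constructor
      · rintro ⟨⟨h1, h2⟩, h3⟩
        refine ⟨Nat.dvd_gcd h1 ((pow_mem_zpowers_pow_iff g h1 j).mp h3), ?_⟩
        exact Nat.gcd_ne_zero_left h2
      · rintro ⟨h1, _⟩
        have hdn : d ∣ orderOf g := h1.trans (Nat.gcd_dvd_left _ _)
        exact ⟨⟨hdn, hn.ne'⟩, (pow_mem_zpowers_pow_iff g hdn j).mpr (h1.trans (Nat.gcd_dvd_right _ _))⟩
    rw [hfilter, sum_divisors_moebius_eq]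
    simp only [exists_coprime_pow_eq_iff g j]
  · have hfilter : (orderOf g).divisors.filter (fun d => y ∈ Subgroup.zpowers (g ^ d)) = ∅ := by
      rw [Finset.filter_eq_empty_iff]
      intro d _ hyd
      apply hy
      exact (Subgroup.zpowers_le.mpr (Subgroup.pow_mem _ (Subgroup.mem_zpowers g) d)) hyd
    rw [hfilter, Finset.sum_empty, if_neg]
    rintro ⟨k, -, rfl⟩
    exact hy (Subgroup.pow_mem _ (Subgroup.mem_zpowers g) k)

/-- **FROB-C**: Möbius inversion over the subgroups of the cyclic group generated by `g`. -/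
theorem moebiusFixedPoints : Fermat.Agent.H3.Frob.MoebiusFixedPointsStatement.{u} := by
  intro G _ _ g τ
  classical
  have : Fintype G := Fintype.ofFinite G
  have hnpos : 0 < orderOf g := orderOf_pos g
  have h1 : ∀ d ∈ (orderOf g).divisors,
      (ArithmeticFunction.moebius d : ℤ) * ((orderOf g / d : ℕ) : ℤ) *
        (Nat.card {x : G ⧸ Subgroup.zpowers (g ^ d) // τ • x = x} : ℤ) =
      ∑ h : G, if h⁻¹ * τ * h ∈ Subgroup.zpowers (g ^ d) then
        (ArithmeticFunction.moebius d : ℤ) else 0 := by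
    intro d hd
    have hdn : d ∣ orderOf g := Nat.dvd_of_mem_divisors hd
    have hcard : Nat.card (Subgroup.zpowers (g ^ d)) = orderOf g / d := by
      rw [Nat.card_zpowers, orderOf_pow, Nat.gcd_eq_right hdn]
    have h2 := card_mul_card_fixed (Subgroup.zpowers (g ^ d)) τ
    rw [hcard] at h2
    rw [mul_assoc, ← Nat.cast_mul, h2, Nat.card_eq_fintype_card, Fintype.card_subtype,
      Finset.card_filter]
    push_cast
    rw [Finset.mul_sum]
    refine Finset.sum_congr rfl fun h _ => ?_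
    split_ifs <;> simp
  rw [Finset.sum_congr rfl h1, Finset.sum_comm]
  have h3 : ∀ h : G, (∑ d ∈ (orderOf g).divisors,
      if h⁻¹ * τ * h ∈ Subgroup.zpowers (g ^ d) then (ArithmeticFunction.moebius d : ℤ) else 0) =
      if ∃ k : ℕ, k.Coprime (orderOf g) ∧ h⁻¹ * τ * h = g ^ k then 1 else 0 := by
    intro h
    rw [← Finset.sum_filter]
    exact sum_moebius_mem_zpowers g (h⁻¹ * τ * h)
  rw [Finset.sum_congr rfl fun h _ => h3 h, Nat.card_eq_fintype_card, Fintype.card_subtype,
    Finset.card_filter]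
  push_cast
  rfl

end group

end Fermat.Agent.H48
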