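import Mathlib
import Fermat.Agent.H62.Cheb.AppInterfaces

set_option autoImplicit false
set_option maxSynthPendingDepth 3

/-!
# P-CHEB / CHEB-APP: propagation of characteristic polynomials from Frobenius elements

`FrobeniusDensityStatement` implies that two 2-dimensional Galois representations (residual or
adic over a Noetherian local ring) whose characteristic polynomials agree at Frobenius elements
outside a finite set of primes have the same characteristic polynomial at every element.
-/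

namespace Fermat.Agent.H48

open Polynomial Matrix

section matrix

variable {R : Type*} [CommRing R]

/-- Cayley–Hamilton for `2 × 2` matrices, by hand. -/
theorem sq_fin_two (P : Matrix (Fin 2) (Fin 2) R) :
    P * P = P.trace • P - P.det • (1 : Matrix (Fin 2) (Fin 2) R) := by
  ext i j
  fin_cases i <;> fin_cases j <;>
    simp [Matrix.mul_apply, Fin.sum_univ_two, Matrix.trace_fin_two, Matrix.det_fin_two] <;> ring

theorem trace_pow_add_two (P : Matrix (Fin 2) (Fin 2) R) (j : ℕ) :
    (P ^ (j + 2)).trace = P.trace * (P ^ (j + 1)).trace - P.det * (P ^ j).trace := by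
  have h : P ^ (j + 2) = P.trace • P ^ (j + 1) - P.det • P ^ j := by
    rw [pow_add, pow_two, sq_fin_two, mul_sub, Matrix.mul_smul, Matrix.mul_smul, mul_one,
      ← pow_succ]
  rw [h, Matrix.trace_sub, Matrix.trace_smul, Matrix.trace_smul, smul_eq_mul, smul_eq_mul]

/-- The traces of the powers of a `2 × 2` matrix are determined by its trace and determinant. -/
theorem trace_pow_fin_two_eq {S : Type*} [CommRing S] (f : R →+* S)
    (P : Matrix (Fin 2) (Fin 2) R) (Q : Matrix (Fin 2) (Fin 2) S)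
    (ht : f P.trace = Q.trace) (hd : f P.det = Q.det) (j : ℕ) :
    f (P ^ j).trace = (Q ^ j).trace := by
  induction j using Nat.twoStepInduction with
  | zero => simp [map_ofNat]
  | one => simpa using ht
  | more j h0 h1 =>
    rw [trace_pow_add_two, trace_pow_add_two, map_sub, map_mul, map_mul, h0, h1, ht, hd]

theorem charpoly_pow_fin_two_eq [Nontrivial R] (P Q : Matrix (Fin 2) (Fin 2) R)
    (h : P.charpoly = Q.charpoly) (j : ℕ) : (P ^ j).charpoly = (Q ^ j).charpoly := by
  rw [Matrix.charpoly_fin_two, Matrix.charpoly_fin_two] at h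
  have ht : P.trace = Q.trace := by
    have := congrArg (fun p : R[X] => p.coeff 1) h
    simpa [Polynomial.coeff_X_pow, Polynomial.coeff_C_mul] using this
  have hd : P.det = Q.det := by
    have := congrArg (fun p : R[X] => p.coeff 0) h
    simpa [Polynomial.coeff_X_pow, Polynomial.coeff_C_mul] using this
  have htj := trace_pow_fin_two_eq (RingHom.id R) P Q ht hd j
  simp only [RingHom.id_apply] at htj
  rw [Matrix.charpoly_fin_two, Matrix.charpoly_fin_two, Matrix.det_pow, Matrix.det_pow, hd, htj]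

end matrix

section linear

variable {A : Type*} [CommRing A] [Nontrivial A]
  {M : Type*} [AddCommGroup M] [Module A M] [Module.Free A M] [Module.Finite A M]
  {M' : Type*} [AddCommGroup M'] [Module A M'] [Module.Free A M'] [Module.Finite A M']

/-- **Rank-2 power lemma**: the characteristic polynomial of `φ ^ j` only depends on the
characteristic polynomial of `φ`. -/
theorem charpoly_pow_eq_of_finrank_two (hM : Module.finrank A M = 2) (hM' : Module.finrank A M' = 2)
    (φ : Module.End A M) (ψ : Module.End A M') (h : φ.charpoly = ψ.charpoly) (j : ℕ) :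
    (φ ^ j).charpoly = (ψ ^ j).charpoly := by
  let b := Module.finBasisOfFinrankEq A M hM
  let b' := Module.finBasisOfFinrankEq A M' hM'
  rw [← LinearMap.charpoly_toMatrix φ b, ← LinearMap.charpoly_toMatrix ψ b'] at h
  rw [← LinearMap.charpoly_toMatrix (φ ^ j) b, ← LinearMap.charpoly_toMatrix (ψ ^ j) b',
    ← LinearMap.toMatrix_pow, ← LinearMap.toMatrix_pow]
  exact charpoly_pow_fin_two_eq _ _ h j

omit [Nontrivial A] [Module.Free A M] [Module.Finite A M] in
theorem repr_mem_of_mem_smul_top {ι : Type*} (b : Module.Basis ι A M) (I : Ideal A) {x : M}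
    (hx : x ∈ I • (⊤ : Submodule A M)) (i : ι) : b.repr x i ∈ I := by
  refine Submodule.smul_induction_on (p := fun x => b.repr x i ∈ I) hx ?_ ?_
  · intro a ha w _
    rw [map_smul, Finsupp.smul_apply, smul_eq_mul]
    exact I.mul_mem_right _ ha
  · intro x y hx hy
    rw [map_add, Finsupp.add_apply]
    exact I.add_mem hx hy

omit [Nontrivial A] in
/-- Endomorphisms which are congruent modulo `I` have characteristic polynomials which are
congruent modulo `I`. -/
theorem charpoly_map_eq_of_congr (I : Ideal A) (φ φ' : Module.End A M)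
    (h : ∀ v, φ v - φ' v ∈ I • (⊤ : Submodule A M)) :
    φ.charpoly.map (Ideal.Quotient.mk I) = φ'.charpoly.map (Ideal.Quotient.mk I) := by
  classical
  let b := Module.Free.chooseBasis A M
  rw [← LinearMap.charpoly_toMatrix φ b, ← LinearMap.charpoly_toMatrix φ' b,
    ← Matrix.charpoly_map, ← Matrix.charpoly_map]
  congr 1
  ext i j
  rw [Matrix.map_apply, Matrix.map_apply, Ideal.Quotient.eq, LinearMap.toMatrix_apply,
    LinearMap.toMatrix_apply, ← Finsupp.sub_apply, ← map_sub]
  exact repr_mem_of_mem_smul_top b I (h (b j)) i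

end linear

section galois

open Fermat.Agent.H62.Cheb

theorem map_mem_smul_top {A : Type*} [CommRing A] {M : Type*} [AddCommGroup M] [Module A M]
    (I : Ideal A) (f : Module.End A M) {x : M} (hx : x ∈ I • (⊤ : Submodule A M)) :
    f x ∈ I • (⊤ : Submodule A M) := by
  refine Submodule.smul_induction_on (p := fun x => f x ∈ I • (⊤ : Submodule A M)) hx ?_ ?_
  · intro a ha w _
    rw [map_smul]
    exact Submodule.smul_mem_smul ha Submodule.mem_top
  · intro x y hx hy
    rw [map_add]
    exact Submodule.add_mem _ hx hy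

/-- The form of the Frobenius density theorem used below: every `g` is, modulo the elements
fixing a given finite extension `K`, a power of a Frobenius element at a prime outside `T`. -/
theorem exists_frobenius_pow_mul (hF : FrobeniusDensityStatement)
    (K : IntermediateField ℚ (AlgebraicClosure ℚ)) [FiniteDimensional ℚ K]
    (g : AlgebraicClosure ℚ ≃ₐ[ℚ] AlgebraicClosure ℚ) (T : Finset ℕ) :
    ∃ ℓ : ℕ, ℓ.Prime ∧ ℓ ∉ T ∧ ∃ A : ValuationSubring (AlgebraicClosure ℚ), A.LiesOverPrime ℓ ∧
      ∃ τ : AlgebraicClosure ℚ ≃ₐ[ℚ] AlgebraicClosure ℚ, A.IsFrobeniusAt τ ℓ ∧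
        ∃ (j : ℕ) (h : AlgebraicClosure ℚ ≃ₐ[ℚ] AlgebraicClosure ℚ),
          g = τ ^ j * h ∧ ∀ x ∈ K, h x = x := by
  obtain ⟨ℓ, hℓ, hℓT, A, hA, -, τ, hτ, j, hj⟩ := hF K g T
  refine ⟨ℓ, hℓ, hℓT, A, hA, τ, hτ, j, (τ ^ j)⁻¹ * g, (mul_inv_cancel_left _ _).symm, ?_⟩
  intro x hx
  rw [AlgEquiv.mul_apply, ← hj x hx]
  exact (τ ^ j).symm_apply_apply x

/-- **CHEB-APP2**: propagation for residual representations. -/
theorem residualPropagation (hF : FrobeniusDensityStatement) : ResidualPropagationStatement := by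
  intro k _ ρ₁ ρ₂ T hT g
  obtain ⟨L₁, hL₁, h1⟩ := ρ₁.factorsThroughFiniteLevel
  obtain ⟨L₂, hL₂, h2⟩ := ρ₂.factorsThroughFiniteLevel
  obtain ⟨ℓ, hℓ, hℓT, A, hA, τ, hτ, j, h, rfl, hh⟩ := exists_frobenius_pow_mul hF (L₁ ⊔ L₂) g T
  have e1 : ρ₁.ρ h = 1 := h1 h fun x hx => hh x ((le_sup_left : L₁ ≤ L₁ ⊔ L₂) hx)
  have e2 : ρ₂.ρ h = 1 := h2 h fun x hx => hh x ((le_sup_right : L₂ ≤ L₁ ⊔ L₂) hx)
  rw [map_mul, map_mul, e1, e2, mul_one, mul_one, map_pow, map_pow]
  exact charpoly_pow_eq_of_finrank_two ρ₁.finrank_eq ρ₂.finrank_eq _ _ (hT ℓ hℓ hℓT A hA τ hτ) j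

/-- **CHEB-APP1**: propagation for adic representations over a Noetherian local ring. -/
theorem charpolyPropagation (hF : FrobeniusDensityStatement) : CharpolyPropagationStatement := by
  intro A _ _ _ ρ₁ ρ₂ T hT g
  have key : ∀ n : ℕ,
      (LinearMap.charpoly (ρ₁.ρ g)).map (Ideal.Quotient.mk (IsLocalRing.maximalIdeal A ^ n)) =
      (LinearMap.charpoly (ρ₂.ρ g)).map (Ideal.Quotient.mk (IsLocalRing.maximalIdeal A ^ n)) := by
    intro n
    obtain ⟨L₁, hL₁, h1⟩ := ρ₁.isAdicContinuous n
    obtain ⟨L₂, hL₂, h2⟩ := ρ₂.isAdicContinuous n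
    obtain ⟨ℓ, hℓ, hℓT, P, hP, τ, hτ, j, h, rfl, hh⟩ := exists_frobenius_pow_mul hF (L₁ ⊔ L₂) g T
    have c1 : ∀ v, ρ₁.ρ (τ ^ j * h) v - (ρ₁.ρ τ ^ j) v ∈
        (IsLocalRing.maximalIdeal A ^ n) • (⊤ : Submodule A ρ₁.V) := by
      intro v
      rw [map_mul, map_pow, Module.End.mul_apply, ← map_sub]
      exact map_mem_smul_top _ _ (h1 h (fun x hx => hh x ((le_sup_left : L₁ ≤ L₁ ⊔ L₂) hx)) v)
    have c2 : ∀ v, ρ₂.ρ (τ ^ j * h) v - (ρ₂.ρ τ ^ j) v ∈
        (IsLocalRing.maximalIdeal A ^ n) • (⊤ : Submodule A ρ₂.V) := by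
      intro v
      rw [map_mul, map_pow, Module.End.mul_apply, ← map_sub]
      exact map_mem_smul_top _ _ (h2 h (fun x hx => hh x ((le_sup_right : L₂ ≤ L₁ ⊔ L₂) hx)) v)
    rw [charpoly_map_eq_of_congr _ _ _ c1, charpoly_map_eq_of_congr _ _ _ c2,
      charpoly_pow_eq_of_finrank_two ρ₁.finrank_eq ρ₂.finrank_eq _ _ (hT ℓ hℓ hℓT P hP τ hτ) j]
  have hbot := Ideal.iInf_pow_eq_bot_of_isLocalRing (IsLocalRing.maximalIdeal A)
    Ideal.IsPrime.ne_top'
  ext i
  rw [← sub_eq_zero, ← Ideal.mem_bot, ← hbot, Ideal.mem_iInf]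
  intro n
  have := congrArg (fun p => Polynomial.coeff p i) (key n)
  simp only [Polynomial.coeff_map] at this
  exact Ideal.Quotient.eq.mp this

end galois

end Fermat.Agent.H48
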