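import Fermat.Agent.H27.ESD.Interfaces1b
import Fermat.Agent.H23.Final3

set_option autoImplicit false
set_option maxSynthPendingDepth 3

/-!
# P-ES / ES-D-A2: `F_L = ℚ̄(X₀(N))` satisfies the hypotheses of Riemann's theorem

`x = j` is transcendental over `ℚ̄`, the function field is finite over `ℚ̄(j)` (P-GENUS, GEN-16)
and separable (characteristic zero).
-/

open AlgebraicCurve ModularCurve

namespace Fermat.Agent.H48

/-- **ES-D-A2.** -/
theorem ffBar : Fermat.Agent.H27.ESD.FFBarStatement := by
  intro N _
  obtain ⟨h1, h2, -⟩ := Fermat.Agent.H23.degreeStatement_holds N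
  refine ⟨Fermat.Agent.H23.jBar N, h1, h2, ?_⟩
  have := h2
  exact Algebra.IsAlgebraic.isSeparable_of_perfectField

end Fermat.Agent.H48
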