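import Mathlib

/-!
# A Deligne–Serre style lifting lemma (pure algebra part)

Given a commutative ring `R` acting faithfully on a finite dimensional vector space `V` over an
algebraically closed field `K`, and a prime ideal `𝔪` of `R`, there is a simultaneous eigenvector
whose eigencharacter has kernel contained in `𝔪`.
-/

set_option autoImplicit false

namespace Fermat.Agent.H48

open scoped IsMulCommutative

section EigenChar

variable {K : Type*} [Field K] [IsAlgClosed K] {V : Type*} [AddCommGroup V] [Module K V]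
  [FiniteDimensional K V]
variable {R : Type*} [CommRing R]

/-- The commutative `K`-subalgebra of `End_K V` generated by the image of `ρ`. -/
noncomputable def spanAlg (ρ : R →+* Module.End K V) : Subalgebra K (Module.End K V) :=
  Algebra.adjoin K (Set.range ρ)

theorem spanAlg_comm (ρ : R →+* Module.End K V) :
    ∀ x ∈ Set.range ρ, ∀ y ∈ Set.range ρ, x * y = y * x := by
  rintro _ ⟨r, rfl⟩ _ ⟨s, rfl⟩
  rw [← map_mul, ← map_mul, mul_comm]

instance spanAlg.instIsMulCommutative (ρ : R →+* Module.End K V) :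
    IsMulCommutative (spanAlg ρ) :=
  Algebra.isMulCommutative_adjoin K (spanAlg_comm ρ)

noncomputable instance spanAlg.instCommRing (ρ : R →+* Module.End K V) : CommRing (spanAlg ρ) :=
  inferInstance

/-- The map `R → spanAlg ρ`. -/
noncomputable def toSpanAlg (ρ : R →+* Module.End K V) : R →+* spanAlg ρ where
  toFun r := ⟨ρ r, Algebra.subset_adjoin ⟨r, rfl⟩⟩
  map_one' := Subtype.ext (map_one ρ)
  map_mul' r s := Subtype.ext (map_mul ρ r s)
  map_zero' := Subtype.ext (map_zero ρ)
  map_add' r s := Subtype.ext (map_add ρ r s)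

theorem toSpanAlg_coe (ρ : R →+* Module.End K V) (r : R) :
    ((toSpanAlg ρ r : spanAlg ρ) : Module.End K V) = ρ r := rfl

theorem toSpanAlg_injective (ρ : R →+* Module.End K V) (hρ : Function.Injective ρ) :
    Function.Injective (toSpanAlg ρ) := by
  intro r s h
  exact hρ (congrArg Subtype.val h)

theorem exists_eigenvector_of_isPrime (ρ : R →+* Module.End K V) (hρ : Function.Injective ρ)
    (𝔪 : Ideal R) [𝔪.IsPrime] :
    ∃ (v : V) (χ : R →+* K), v ≠ 0 ∧ (∀ r : R, ρ r v = χ r • v) ∧ RingHom.ker χ ≤ 𝔪 := by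
  classical
  -- a minimal prime below `𝔪`
  obtain ⟨𝔭, h𝔭min, h𝔭le⟩ := Ideal.exists_minimalPrimes_le (I := (⊥ : Ideal R)) (J := 𝔪) bot_le
  -- lift it to `A`
  set A := spanAlg ρ with hA
  have hcomap : Ideal.comap (toSpanAlg ρ) (⊥ : Ideal A) = ⊥ := by
    ext r
    simp only [Ideal.mem_comap, Ideal.mem_bot]
    constructor
    · intro h
      exact toSpanAlg_injective ρ hρ (h.trans (map_zero _).symm)
    · rintro rfl
      exact map_zero _
  obtain ⟨𝔓, h𝔓min, h𝔓comap⟩ :=
    Ideal.exists_minimalPrimes_comap_eq (I := (⊥ : Ideal A)) (toSpanAlg ρ) 𝔭 (by rwa [hcomap])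
  have h𝔓prime : 𝔓.IsPrime := h𝔓min.1.1
  -- `A` is noetherian and `V` is a finite faithful `A`-module
  haveI : IsNoetherianRing A := IsNoetherianRing.of_finite K A
  haveI : Module.Finite A V := Module.Finite.of_restrictScalars_finite K A V
  have hann : Module.annihilator A V = ⊥ := by
    rw [eq_bot_iff]
    intro a ha
    rw [Module.mem_annihilator] at ha
    rw [Ideal.mem_bot]
    apply Subtype.ext
    apply LinearMap.ext
    intro v
    exact ha v
  have hass : 𝔓 ∈ associatedPrimes A V := by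
    apply Module.associatedPrimes.minimalPrimes_annihilator_subset_associatedPrimes A V
    rwa [hann]
  obtain ⟨-, v, hv⟩ := (isAssociatedPrime_iff).mp hass
  have hmem : ∀ a : A, a ∈ 𝔓 ↔ a.1 v = 0 := by
    intro a
    rw [hv, Submodule.mem_colon_singleton, Submodule.mem_bot]
    rfl
  have hv0 : v ≠ 0 := by
    rintro rfl
    apply h𝔓prime.ne_top
    rw [Ideal.eq_top_iff_one, hmem]
    simp
  -- the residue field is `K`
  haveI : IsDomain (A ⧸ 𝔓) := Ideal.Quotient.isDomain 𝔓
  haveI : Algebra.IsIntegral K (A ⧸ 𝔓) := Algebra.IsIntegral.of_finite K (A ⧸ 𝔓)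
  have hbij : Function.Bijective (algebraMap K (A ⧸ 𝔓)) :=
    IsAlgClosed.algebraMap_bijective_of_isIntegral
  let e : K ≃+* (A ⧸ 𝔓) := RingEquiv.ofBijective (algebraMap K (A ⧸ 𝔓)) hbij
  let χA : A →+* K := (e.symm : (A ⧸ 𝔓) →+* K).comp (Ideal.Quotient.mk 𝔓)
  have hχA : ∀ a : A, a - algebraMap K A (χA a) ∈ 𝔓 := by
    intro a
    rw [← Ideal.Quotient.eq]
    have : algebraMap K (A ⧸ 𝔓) (χA a) = Ideal.Quotient.mk 𝔓 a := by
      change e (e.symm (Ideal.Quotient.mk 𝔓 a)) = _
      exact e.apply_symm_apply _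
    rw [← this]
    rfl
  have hkerA : ∀ a : A, χA a = 0 ↔ a ∈ 𝔓 := by
    intro a
    change e.symm (Ideal.Quotient.mk 𝔓 a) = 0 ↔ _
    rw [map_eq_zero_iff e.symm e.symm.injective, Ideal.Quotient.eq_zero_iff_mem]
  refine ⟨v, χA.comp (toSpanAlg ρ), hv0, ?_, ?_⟩
  · intro r
    have h1 := (hmem _).mp (hχA (toSpanAlg ρ r))
    have h2 : ((toSpanAlg ρ r - algebraMap K A (χA (toSpanAlg ρ r)) : A) : Module.End K V) v
        = ρ r v - χA (toSpanAlg ρ r) • v := by
      simp [toSpanAlg_coe, Algebra.algebraMap_eq_smul_one]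
    rw [h2, sub_eq_zero] at h1
    exact h1
  · intro r hr
    rw [RingHom.mem_ker, RingHom.comp_apply, hkerA] at hr
    apply h𝔭le
    rw [← h𝔓comap]
    exact hr

end EigenChar

end Fermat.Agent.H48
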