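import Mathlib
import Fermat.Prelude.Def_CuspForm_IntegralLattice
import Fermat.Prelude.Def_FormalHecke_Eigensystem
import Fermat.Prelude.Def_ModularForm_EisensteinChiNegThree

/-!
# Formal Hecke eigensystems: multiplicativity, and congruences modulo 3
-/

set_option autoImplicit false

namespace Fermat.Agent.H48

open EisensteinWeightOne

section Formal

variable {R : Type*} [CommRing R]

theorem eigensystem_mul_of_coprime {e b : ℕ → R} (h : FormalHecke.IsEigensystem e b) :
    ∀ m n : ℕ, m.Coprime n → b (m * n) = b m * b n := by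
  intro m
  induction m using Nat.strong_induction_on with
  | _ m ih =>
    intro n hmn
    rcases Nat.lt_or_ge m 2 with hm | hm
    · interval_cases m
      · have hn : n = 1 := by simpa using hmn
        subst hn
        simp [h.1]
      · simp [h.1]
    · have hm1 : m ≠ 1 := by omega
      have hℓ : (Nat.minFac m).Prime := Nat.minFac_prime hm1
      obtain ⟨m', hm'⟩ := Nat.minFac_dvd m
      set ℓ := Nat.minFac m with hℓdef
      have hℓ2 : 2 ≤ ℓ := hℓ.two_le
      have hm'pos : 0 < m' := by
        rcases Nat.eq_zero_or_pos m' with h0 | h0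
        · rw [h0, mul_zero] at hm'; omega
        · exact h0
      have hm'lt : m' < m := by
        rw [hm']
        nlinarith
      have hcopℓ : Nat.Coprime ℓ n := Nat.Coprime.coprime_dvd_left (Nat.minFac_dvd m) hmn
      have hcopm' : Nat.Coprime m' n :=
        Nat.Coprime.coprime_dvd_left (Dvd.intro_left ℓ hm'.symm) hmn
      have hℓn : ¬ ℓ ∣ n := fun hdvd => by
        have := Nat.Coprime.eq_one_of_dvd hcopℓ hdvd
        omega
      have h1 := h.2 ℓ hℓ (m' * n)
      have h2 := h.2 ℓ hℓ m'
      have ih1 := ih m' hm'lt n hcopm'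
      have hmn_eq : m * n = ℓ * (m' * n) := by rw [hm', mul_assoc]
      by_cases hdvd : ℓ ∣ m'
      · obtain ⟨m'', hm''⟩ := hdvd
        have hm''lt : m'' < m := by
          have : m'' ≤ m' := by
            rw [hm'']
            exact Nat.le_mul_of_pos_left m'' (by omega)
          omega
        have hcopm'' : Nat.Coprime m'' n :=
          Nat.Coprime.coprime_dvd_left (Dvd.intro_left ℓ hm''.symm) hcopm'
        have ih2 := ih m'' hm''lt n hcopm''
        have hd1 : ℓ ∣ m' * n := Dvd.dvd.mul_right ⟨m'', hm''⟩ n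
        have hdiv1 : m' * n / ℓ = m'' * n := by
          rw [hm'', mul_assoc]
          exact Nat.mul_div_cancel_left _ (by omega)
        have hdiv2 : m' / ℓ = m'' := by
          rw [hm'']
          exact Nat.mul_div_cancel_left _ (by omega)
        rw [if_pos hd1, hdiv1, ih1, ih2] at h1
        rw [if_pos ⟨m'', hm''⟩, hdiv2] at h2
        rw [hmn_eq, hm']
        linear_combination h1 - b n * h2
      · have hd1 : ¬ ℓ ∣ m' * n := by
          intro hd
          rcases (Nat.Prime.dvd_mul hℓ).mp hd with hd | hd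
          · exact hdvd hd
          · exact hℓn hd
        rw [if_neg hd1, ih1] at h1
        rw [if_neg hdvd] at h2
        rw [hmn_eq, hm']
        linear_combination h1 - b n * h2

theorem eigensystem_prime_pow {e b : ℕ → R} (h : FormalHecke.IsEigensystem e b)
    (ℓ r : ℕ) (hℓ : ℓ.Prime) :
    b (ℓ ^ (r + 2)) = b ℓ * b (ℓ ^ (r + 1)) - e ℓ * b (ℓ ^ r) := by
  have h1 := h.2 ℓ hℓ (ℓ ^ (r + 1))
  have hd : ℓ ∣ ℓ ^ (r + 1) := dvd_pow_self ℓ (by omega)
  have hdiv : ℓ ^ (r + 1) / ℓ = ℓ ^ r := by
    rw [pow_succ]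
    exact Nat.mul_div_cancel _ hℓ.pos
  rw [if_pos hd, hdiv] at h1
  have : ℓ ^ (r + 2) = ℓ * ℓ ^ (r + 1) := by ring
  rw [this]
  linear_combination h1

/-- If the first coefficient of a "formal eigenvector" vanishes, all coefficients vanish. -/
theorem eigenvector_eq_zero {e lam c : ℕ → R} (h0 : c 0 = 0) (h1 : c 1 = 0)
    (h : ∀ ℓ : ℕ, ℓ.Prime → ∀ n : ℕ,
      c (ℓ * n) + e ℓ * (if ℓ ∣ n then c (n / ℓ) else 0) = lam ℓ * c n) :
    ∀ n, c n = 0 := by
  intro n
  induction n using Nat.strong_induction_on with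
  | _ n ih =>
    rcases Nat.lt_or_ge n 2 with hn | hn
    · interval_cases n
      · exact h0
      · exact h1
    · have hn1 : n ≠ 1 := by omega
      have hℓ : (Nat.minFac n).Prime := Nat.minFac_prime hn1
      obtain ⟨n', hn'⟩ := Nat.minFac_dvd n
      set ℓ := Nat.minFac n with hℓdef
      have hℓ2 : 2 ≤ ℓ := hℓ.two_le
      have hn'pos : 0 < n' := by
        rcases Nat.eq_zero_or_pos n' with h0 | h0
        · rw [h0, mul_zero] at hn'; omega
        · exact h0
      have hn'lt : n' < n := by
        rw [hn']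
        nlinarith
      have hdivlt : n' / ℓ < n := lt_of_le_of_lt (Nat.div_le_self _ _) hn'lt
      have h2 := h ℓ hℓ n'
      rw [ih n' hn'lt, ih (n' / ℓ) hdivlt] at h2
      rw [hn']
      simpa using h2

end Formal

section ModThree

theorem chiNegThree_cast (ℓ : ℕ) : ((chiNegThree ℓ : ℤ) : ZMod 3) = (ℓ : ZMod 3) := by
  have h3 : (ℓ : ZMod 3) = ((ℓ % 3 : ℕ) : ZMod 3) := (ZMod.natCast_mod ℓ 3).symm
  rw [h3]
  unfold chiNegThree
  have hlt : ℓ % 3 < 3 := Nat.mod_lt _ (by norm_num)
  interval_cases hℓ : ℓ % 3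
  · simp
  · simp
  · simp only [show (2 : ℕ) ≠ 1 by norm_num, if_false, if_true]
    decide

theorem map_e1Chi3In : PowerSeries.map (Int.castRingHom (ZMod 3)) (e1Chi3In ℤ) = 1 := by
  ext n
  simp only [e1Chi3In, e1Chi3, PowerSeries.coeff_map, PowerSeries.coeff_mk, PowerSeries.coeff_one]
  split_ifs with hn
  · simp
  · have h6 : ((6 : ℤ) : ZMod 3) = 0 := by decide
    simp only [Int.coe_castRingHom, Int.cast_id, eq_intCast]
    rw [Int.cast_mul, h6, zero_mul]

theorem bridgeProduct_coeff_cast (a : ℕ → ℤ) (n : ℕ) :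
    (((bridgeProduct a).coeff n : ℤ) : ZMod 3) = ((a n : ℤ) : ZMod 3) := by
  have h1 : PowerSeries.map (Int.castRingHom (ZMod 3)) (bridgeProduct a) =
      PowerSeries.map (Int.castRingHom (ZMod 3)) (PowerSeries.mk a) := by
    rw [bridgeProduct, map_mul, map_e1Chi3In, mul_one]
  have h2 := congrArg (PowerSeries.coeff n) h1
  simpa [PowerSeries.coeff_map] using h2

end ModThree

end Fermat.Agent.H48
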