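import Fermat.Agent.H48.Lattice
import Fermat.Agent.H48.Formal

/-!
# The maximal ideal of the Hecke algebra attached to a mod 3 eigenvector
-/

set_option autoImplicit false
set_option maxHeartbeats 400000

namespace Fermat.Agent.H48

open CongruenceSubgroup ModularFormClass UpperHalfPlane EisensteinWeightOne

variable {N : ℕ}

/-- Cusp forms all of whose `q`-coefficients are integers divisible by `3`. -/
def threeLattice (N : ℕ) : Submodule ℤ (CuspForm (Gamma0 N) 2) where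
  carrier := {g | ∀ n : ℕ, ∃ m : ℤ, qCoeff ⇑g n = 3 * (m : ℂ)}
  add_mem' {f g} hf hg n := by
    obtain ⟨m, hm⟩ := hf n
    obtain ⟨m', hm'⟩ := hg n
    exact ⟨m + m', by rw [qCoeff_add, hm, hm']; push_cast; ring⟩
  zero_mem' n := ⟨0, by rw [qCoeff_zero]; simp⟩
  smul_mem' c {f} hf n := by
    obtain ⟨m, hm⟩ := hf n
    exact ⟨c * m, by rw [qCoeff_zsmul, hm]; push_cast; ring⟩

theorem mem_threeLattice (g : CuspForm (Gamma0 N) 2) :
    g ∈ threeLattice N ↔ ∀ n : ℕ, ∃ m : ℤ, qCoeff ⇑g n = 3 * (m : ℂ) := Iff.rfl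

theorem mem_threeLattice_iff (g : CuspForm (Gamma0 N) 2) :
    g ∈ threeLattice N ↔ (3⁻¹ : ℂ) • g ∈ CuspForm.intLattice N 2 := by
  rw [mem_intLattice_iff, mem_threeLattice]
  constructor
  · intro h n
    obtain ⟨m, hm⟩ := h n
    refine ⟨m, ?_⟩
    rw [qCoeff_smul, hm]
    field_simp
  · intro h n
    obtain ⟨m, hm⟩ := h n
    refine ⟨m, ?_⟩
    rw [qCoeff_smul] at hm
    rw [← hm]
    field_simp

theorem heckeAlg_mem_threeLattice [NeZero N] {x : Module.End ℂ (CuspForm (Gamma0 N) 2)}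
    (hx : x ∈ heckeAlg N) {g : CuspForm (Gamma0 N) 2}
    (hg : g ∈ threeLattice N) : x g ∈ threeLattice N := by
  rw [mem_threeLattice_iff] at hg ⊢
  have := heckeAlg_mem_intLattice ⟨x, hx⟩ hg
  rwa [map_smul] at this

/-- The ideal of Hecke operators sending `f₀` into `3 L`. -/
def annModThree [NeZero N] (f₀ : CuspForm (Gamma0 N) 2) : Ideal (heckeAlg N) where
  carrier := {T | (T : Module.End ℂ (CuspForm (Gamma0 N) 2)) f₀ ∈ threeLattice N}
  add_mem' {S T} hS hT := by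
    change ((S + T : heckeAlg N) : Module.End ℂ (CuspForm (Gamma0 N) 2)) f₀ ∈ threeLattice N
    have : ((S + T : heckeAlg N) : Module.End ℂ (CuspForm (Gamma0 N) 2)) f₀ =
        (S : Module.End ℂ (CuspForm (Gamma0 N) 2)) f₀ +
          (T : Module.End ℂ (CuspForm (Gamma0 N) 2)) f₀ := rfl
    rw [this]
    exact add_mem hS hT
  zero_mem' := by
    change ((0 : heckeAlg N) : Module.End ℂ (CuspForm (Gamma0 N) 2)) f₀ ∈ threeLattice N
    have : ((0 : heckeAlg N) : Module.End ℂ (CuspForm (Gamma0 N) 2)) f₀ = 0 := rfl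
    rw [this]
    exact zero_mem _
  smul_mem' S {T} hT := by
    change ((S * T : heckeAlg N) : Module.End ℂ (CuspForm (Gamma0 N) 2)) f₀ ∈ threeLattice N
    have : ((S * T : heckeAlg N) : Module.End ℂ (CuspForm (Gamma0 N) 2)) f₀ =
        (S : Module.End ℂ (CuspForm (Gamma0 N) 2))
          ((T : Module.End ℂ (CuspForm (Gamma0 N) 2)) f₀) := rfl
    rw [this]
    exact heckeAlg_mem_threeLattice S.2 hT

theorem mem_annModThree [NeZero N] (f₀ : CuspForm (Gamma0 N) 2) (T : heckeAlg N) :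
    T ∈ annModThree f₀ ↔
      (T : Module.End ℂ (CuspForm (Gamma0 N) 2)) f₀ ∈ threeLattice N := Iff.rfl

section Datum

variable [NeZero N] {a : ℕ → ℤ} {f₀ : CuspForm (Gamma0 N) 2} {af : ℕ → ℤ}

theorem coe_sub_intCast_apply (T : heckeAlg N) (m : ℤ) (f : CuspForm (Gamma0 N) 2) :
    ((T - (m : heckeAlg N) : heckeAlg N) : Module.End ℂ (CuspForm (Gamma0 N) 2)) f =
      (T : Module.End ℂ (CuspForm (Gamma0 N) 2)) f - m • f := by
  have h1 : ((T - (m : heckeAlg N) : heckeAlg N) : Module.End ℂ (CuspForm (Gamma0 N) 2)) =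
      (T : Module.End ℂ (CuspForm (Gamma0 N) 2)) - (m : Module.End ℂ (CuspForm (Gamma0 N) 2)) := by
    rfl
  rw [h1, LinearMap.sub_apply, Module.End.intCast_apply]

theorem coe_intCast_apply (m : ℤ) (f : CuspForm (Gamma0 N) 2) :
    (((m : heckeAlg N) : heckeAlg N) : Module.End ℂ (CuspForm (Gamma0 N) 2)) f = m • f := by
  have h1 : (((m : heckeAlg N) : heckeAlg N) : Module.End ℂ (CuspForm (Gamma0 N) 2)) =
      (m : Module.End ℂ (CuspForm (Gamma0 N) 2)) := by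
    rfl
  rw [h1, Module.End.intCast_apply]

theorem intCast_mem_annModThree (haf : ∀ n, (af n : ℂ) = qCoeff ⇑f₀ n)
    (hone : ((af 1 : ℤ) : ZMod 3) = 1) (m : ℤ) :
    (m : heckeAlg N) ∈ annModThree f₀ ↔ (3 : ℤ) ∣ m := by
  rw [mem_annModThree, coe_intCast_apply]
  constructor
  · intro h
    obtain ⟨m', hm'⟩ := h 1
    rw [qCoeff_zsmul, ← haf] at hm'
    have h2 : m * af 1 = 3 * m' := by exact_mod_cast hm'
    have h3 := congrArg (Int.cast : ℤ → ZMod 3) h2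
    push_cast at h3
    rw [hone, mul_one] at h3
    have h4 : ((3 : ℕ) : ZMod 3) = 0 := ZMod.natCast_self 3
    have h5 : (3 : ZMod 3) = 0 := by exact_mod_cast h4
    rw [h5, zero_mul] at h3
    exact (ZMod.intCast_zmod_eq_zero_iff_dvd m 3).mp h3
  · rintro ⟨m', rfl⟩
    intro n
    refine ⟨m' * af n, ?_⟩
    rw [qCoeff_zsmul, ← haf]
    push_cast
    ring

theorem heckeT_sub_mem_annModThree (haf : ∀ n, (af n : ℂ) = qCoeff ⇑f₀ n)
    (hcong : ∀ n, ((af n : ℤ) : ZMod 3) = ((a n : ℤ) : ZMod 3))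
    (heig : FormalHecke.IsEigensystem
      (fun ℓ => if ℓ ∣ N then 0 else ((chiNegThree ℓ : ℤ) : ℤ)) a)
    {ℓ : ℕ} (hℓ : ℓ.Prime) (hℓN : ¬ ℓ ∣ N) :
    (CuspForm.heckeAlgebra.T hℓ hℓN (Set.notMem_empty ℓ) : heckeAlg N) - ((a ℓ : ℤ) : heckeAlg N)
      ∈ annModThree f₀ := by
  rw [mem_annModThree, coe_sub_intCast_apply, CuspForm.heckeAlgebra.coe_T]
  intro n
  have key : ((af (n * ℓ) + (if ℓ ∣ n then (ℓ : ℤ) * af (n / ℓ) else 0) - a ℓ * af n : ℤ) :
      ZMod 3) = 0 := by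
    have h1 := congrArg (Int.cast : ℤ → ZMod 3) (heig.2 ℓ hℓ n)
    simp only [if_neg hℓN] at h1
    push_cast at h1
    rw [chiNegThree_cast] at h1
    push_cast
    rw [hcong, hcong (n := n), mul_comm n ℓ, ← h1]
    split_ifs
    · push_cast
      rw [hcong]
      ring
    · push_cast
      ring
  obtain ⟨m, hm⟩ := (ZMod.intCast_zmod_eq_zero_iff_dvd _ 3).mp key
  refine ⟨m, ?_⟩
  rw [qCoeff_sub, qCoeff_zsmul, qCoeff_heckeTLin]
  simp only [← haf]
  have h2 := congrArg (Int.cast : ℤ → ℂ) hm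
  push_cast at h2
  rw [← h2]

theorem heckeU_sub_mem_annModThree (haf : ∀ n, (af n : ℂ) = qCoeff ⇑f₀ n)
    (hcong : ∀ n, ((af n : ℤ) : ZMod 3) = ((a n : ℤ) : ZMod 3))
    (heig : FormalHecke.IsEigensystem
      (fun ℓ => if ℓ ∣ N then 0 else ((chiNegThree ℓ : ℤ) : ℤ)) a)
    {q : ℕ} (hq : q.Prime) (hqN : q ∣ N) :
    (CuspForm.heckeAlgebra.U hq hqN (Set.notMem_empty q) : heckeAlg N) - ((a q : ℤ) : heckeAlg N)
      ∈ annModThree f₀ := by
  rw [mem_annModThree, coe_sub_intCast_apply, CuspForm.heckeAlgebra.coe_U]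
  intro n
  have key : ((af (n * q) - a q * af n : ℤ) : ZMod 3) = 0 := by
    have h1 := congrArg (Int.cast : ℤ → ZMod 3) (heig.2 q hq n)
    simp only [if_pos hqN] at h1
    push_cast at h1
    push_cast
    rw [hcong, hcong (n := n), mul_comm n q, ← h1]
    ring
  obtain ⟨m, hm⟩ := (ZMod.intCast_zmod_eq_zero_iff_dvd _ 3).mp key
  refine ⟨m, ?_⟩
  rw [qCoeff_sub, qCoeff_zsmul, qCoeff_heckeULin hq]
  simp only [← haf]
  have h2 := congrArg (Int.cast : ℤ → ℂ) hm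
  push_cast at h2
  rw [← h2]

theorem heckeT_sub_mem_threeLattice (haf : ∀ n, (af n : ℂ) = qCoeff ⇑f₀ n)
    (hcong : ∀ n, ((af n : ℤ) : ZMod 3) = ((a n : ℤ) : ZMod 3))
    (heig : FormalHecke.IsEigensystem
      (fun ℓ => if ℓ ∣ N then 0 else ((chiNegThree ℓ : ℤ) : ℤ)) a)
    {ℓ : ℕ} (hℓ : ℓ.Prime) (hℓN : ¬ ℓ ∣ N) :
    CuspForm.heckeTLin 2 hℓ hℓN f₀ - a ℓ • f₀ ∈ threeLattice N := by
  have := heckeT_sub_mem_annModThree (f₀ := f₀) haf hcong heig hℓ hℓN
  rw [mem_annModThree, coe_sub_intCast_apply, CuspForm.heckeAlgebra.coe_T] at this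
  exact this

theorem heckeU_sub_mem_threeLattice (haf : ∀ n, (af n : ℂ) = qCoeff ⇑f₀ n)
    (hcong : ∀ n, ((af n : ℤ) : ZMod 3) = ((a n : ℤ) : ZMod 3))
    (heig : FormalHecke.IsEigensystem
      (fun ℓ => if ℓ ∣ N then 0 else ((chiNegThree ℓ : ℤ) : ℤ)) a)
    {q : ℕ} (hq : q.Prime) (hqN : q ∣ N) :
    CuspForm.heckeULin 2 hqN f₀ - a q • f₀ ∈ threeLattice N := by
  have := heckeU_sub_mem_annModThree (f₀ := f₀) haf hcong heig hq hqN
  rw [mem_annModThree, coe_sub_intCast_apply, CuspForm.heckeAlgebra.coe_U] at this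
  exact this

theorem exists_int_sub_mem_threeLattice (haf : ∀ n, (af n : ℂ) = qCoeff ⇑f₀ n)
    (hcong : ∀ n, ((af n : ℤ) : ZMod 3) = ((a n : ℤ) : ZMod 3))
    (heig : FormalHecke.IsEigensystem
      (fun ℓ => if ℓ ∣ N then 0 else ((chiNegThree ℓ : ℤ) : ℤ)) a)
    {x : Module.End ℂ (CuspForm (Gamma0 N) 2)} (hx : x ∈ CuspForm.heckeAlgebra N 2 ∅) :
    ∃ m : ℤ, x f₀ - m • f₀ ∈ threeLattice N := by
  unfold CuspForm.heckeAlgebra at hx
  induction hx using Algebra.adjoin_induction with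
  | mem x hx =>
    rcases hx with ⟨ℓ, hℓ, hℓN, -, rfl⟩ | ⟨q, hqN, hq, -, rfl⟩
    · exact ⟨a ℓ, heckeT_sub_mem_threeLattice haf hcong heig hℓ hℓN⟩
    · exact ⟨a q, heckeU_sub_mem_threeLattice haf hcong heig hq hqN⟩
  | algebraMap r =>
    refine ⟨r, ?_⟩
    rw [Algebra.algebraMap_eq_smul_one, LinearMap.smul_apply, Module.End.one_apply, sub_self]
    exact zero_mem _
  | add x y hx hy h₁ h₂ =>
    obtain ⟨m₁, h₁⟩ := h₁
    obtain ⟨m₂, h₂⟩ := h₂
    refine ⟨m₁ + m₂, ?_⟩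
    have : (x + y) f₀ - (m₁ + m₂) • f₀ = (x f₀ - m₁ • f₀) + (y f₀ - m₂ • f₀) := by
      rw [LinearMap.add_apply, add_smul]
      abel
    rw [this]
    exact add_mem h₁ h₂
  | mul x y hx hy h₁ h₂ =>
    obtain ⟨m₁, h₁⟩ := h₁
    obtain ⟨m₂, h₂⟩ := h₂
    refine ⟨m₁ * m₂, ?_⟩
    have : (x * y) f₀ - (m₁ * m₂) • f₀ = x (y f₀ - m₂ • f₀) + m₂ • (x f₀ - m₁ • f₀) := by
      rw [Module.End.mul_apply, map_sub, map_zsmul, smul_sub, smul_smul, mul_comm m₂ m₁]
      abel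
    rw [this]
    exact add_mem (heckeAlg_mem_threeLattice hx h₂) (Submodule.smul_mem _ _ h₁)

theorem exists_int_sub_mem_annModThree (haf : ∀ n, (af n : ℂ) = qCoeff ⇑f₀ n)
    (hcong : ∀ n, ((af n : ℤ) : ZMod 3) = ((a n : ℤ) : ZMod 3))
    (heig : FormalHecke.IsEigensystem
      (fun ℓ => if ℓ ∣ N then 0 else ((chiNegThree ℓ : ℤ) : ℤ)) a)
    (T : heckeAlg N) : ∃ m : ℤ, T - (m : heckeAlg N) ∈ annModThree f₀ := by
  obtain ⟨m, hm⟩ := exists_int_sub_mem_threeLattice (f₀ := f₀) haf hcong heig T.2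
  refine ⟨m, ?_⟩
  rw [mem_annModThree, coe_sub_intCast_apply]
  exact hm

theorem isPrime_annModThree (haf : ∀ n, (af n : ℂ) = qCoeff ⇑f₀ n)
    (hcong : ∀ n, ((af n : ℤ) : ZMod 3) = ((a n : ℤ) : ZMod 3))
    (heig : FormalHecke.IsEigensystem
      (fun ℓ => if ℓ ∣ N then 0 else ((chiNegThree ℓ : ℤ) : ℤ)) a) :
    (annModThree f₀).IsPrime := by
  have hone : ((af 1 : ℤ) : ZMod 3) = 1 := by
    rw [hcong, heig.1]
    simp
  rw [Ideal.isPrime_iff]
  constructor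
  · rw [Ne, Ideal.eq_top_iff_one]
    intro h1
    have h2 : ((1 : ℤ) : heckeAlg N) ∈ annModThree f₀ := by
      rwa [Int.cast_one]
    rw [intCast_mem_annModThree haf hone] at h2
    norm_num at h2
  · intro S T hST
    obtain ⟨s, hs⟩ := exists_int_sub_mem_annModThree haf hcong heig S
    obtain ⟨t, ht⟩ := exists_int_sub_mem_annModThree haf hcong heig T
    have h1 : ((s * t : ℤ) : heckeAlg N) ∈ annModThree f₀ := by
      have : ((s * t : ℤ) : heckeAlg N) =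
          S * T - (S - (s : heckeAlg N)) * T - (s : heckeAlg N) * (T - (t : heckeAlg N)) := by
        push_cast
        ring
      rw [this]
      exact sub_mem (sub_mem hST (Ideal.mul_mem_right _ _ hs)) (Ideal.mul_mem_left _ _ ht)
    rw [intCast_mem_annModThree haf hone] at h1
    rcases Int.Prime.dvd_mul' Nat.prime_three (by exact_mod_cast h1) with h | h
    · left
      have h2 : (s : heckeAlg N) ∈ annModThree f₀ :=
        (intCast_mem_annModThree haf hone s).mpr (by exact_mod_cast h)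
      have := add_mem hs h2
      rwa [sub_add_cancel] at this
    · right
      have h2 : (t : heckeAlg N) ∈ annModThree f₀ :=
        (intCast_mem_annModThree haf hone t).mpr (by exact_mod_cast h)
      have := add_mem ht h2
      rwa [sub_add_cancel] at this

theorem three_mem_annModThree (haf : ∀ n, (af n : ℂ) = qCoeff ⇑f₀ n)
    (hone : ((af 1 : ℤ) : ZMod 3) = 1) :
    ((3 : ℕ) : heckeAlg N) ∈ annModThree f₀ := by
  have : ((3 : ℕ) : heckeAlg N) = ((3 : ℤ) : heckeAlg N) := by push_cast; rfl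
  rw [this, intCast_mem_annModThree haf hone]

end Datum

end Fermat.Agent.H48
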