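import Fermat.Agent.H48.QCoeff
import Fermat.Agent.H48.Formal

/-!
# Normalising a simultaneous Hecke eigenvector
-/

set_option autoImplicit false
set_option maxHeartbeats 400000

namespace Fermat.Agent.H48

open CongruenceSubgroup ModularFormClass UpperHalfPlane

variable {N : ℕ} [NeZero N]

theorem exists_normalized_eigenform {v : CuspForm (Gamma0 N) 2} (hv : v ≠ 0) (lam : ℕ → ℂ)
    (hT : ∀ (ℓ : ℕ) (hℓ : ℓ.Prime) (hℓN : ¬ ℓ ∣ N), CuspForm.heckeTLin 2 hℓ hℓN v = lam ℓ • v)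
    (hU : ∀ (q : ℕ) (_ : q.Prime) (hqN : q ∣ N), CuspForm.heckeULin 2 hqN v = lam q • v) :
    ∃ f : CuspForm (Gamma0 N) 2, f.IsNormalizedEigenform ∧
      ∀ ℓ : ℕ, ℓ.Prime → qCoeff ⇑f ℓ = lam ℓ := by
  classical
  set c : ℕ → ℂ := fun n => qCoeff ⇑v n with hc
  set e' : ℕ → ℂ := fun ℓ => if ℓ ∣ N then 0 else (ℓ : ℂ) with he'
  have hrel : ∀ ℓ : ℕ, ℓ.Prime → ∀ n : ℕ,
      c (ℓ * n) + e' ℓ * (if ℓ ∣ n then c (n / ℓ) else 0) = lam ℓ * c n := by
    intro ℓ hℓ n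
    by_cases hℓN : ℓ ∣ N
    · have h1 := congrArg (fun g : CuspForm (Gamma0 N) 2 => qCoeff ⇑g n) (hU ℓ hℓ hℓN)
      simp only [qCoeff_heckeULin hℓ, qCoeff_smul] at h1
      simp only [hc, he', if_pos hℓN, zero_mul, add_zero, mul_comm ℓ n]
      exact h1
    · have h1 := congrArg (fun g : CuspForm (Gamma0 N) 2 => qCoeff ⇑g n) (hT ℓ hℓ hℓN)
      simp only [qCoeff_heckeTLin, qCoeff_smul] at h1
      simp only [hc, he', if_neg hℓN, mul_comm ℓ n]
      rw [← h1]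
      split_ifs <;> simp
  have hc0 : c 0 = 0 := qCoeff_cusp_zero v
  have hc1 : c 1 ≠ 0 := by
    intro h1
    exact hv (eq_zero_of_forall_qCoeff_eq_zero v (eigenvector_eq_zero hc0 h1 hrel))
  set f : CuspForm (Gamma0 N) 2 := (c 1)⁻¹ • v with hf
  set b : ℕ → ℂ := fun n => qCoeff ⇑f n with hb
  have hbc : ∀ n, b n = (c 1)⁻¹ * c n := fun n => qCoeff_smul _ _ _
  have hb1 : b 1 = 1 := by
    rw [hbc]
    exact inv_mul_cancel₀ hc1
  have hrelb : ∀ ℓ : ℕ, ℓ.Prime → ∀ n : ℕ,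
      b (ℓ * n) + e' ℓ * (if ℓ ∣ n then b (n / ℓ) else 0) = lam ℓ * b n := by
    intro ℓ hℓ n
    have h1 := hrel ℓ hℓ n
    rw [hbc, hbc n]
    split_ifs with hd
    · rw [if_pos hd] at h1
      rw [hbc]
      linear_combination (c 1)⁻¹ * h1
    · rw [if_neg hd] at h1
      linear_combination (c 1)⁻¹ * h1
  have hlam : ∀ ℓ : ℕ, ℓ.Prime → b ℓ = lam ℓ := by
    intro ℓ hℓ
    have h1 := hrelb ℓ hℓ 1
    have hnd : ¬ ℓ ∣ 1 := by
      intro hd
      exact hℓ.one_lt.ne' (Nat.dvd_one.mp hd)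
    rw [if_neg hnd, mul_zero, add_zero, mul_one, hb1, mul_one] at h1
    exact h1
  have heig : FormalHecke.IsEigensystem e' b := by
    refine ⟨hb1, fun ℓ hℓ n => ?_⟩
    rw [hrelb ℓ hℓ n, hlam ℓ hℓ]
  refine ⟨f, ⟨hb1, eigensystem_mul_of_coprime heig, ?_, ?_⟩, hlam⟩
  · intro p r hp hpN
    have := eigensystem_prime_pow heig p r hp
    simp only [he', if_neg hpN] at this
    exact this
  · intro p r hp hpN
    have := eigensystem_prime_pow heig p r hp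
    simp only [he', if_pos hpN, zero_mul, sub_zero] at this
    exact this

end Fermat.Agent.H48
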