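import Fermat.Agent.H48.EigenChar
import Fermat.Agent.H48.ModThree
import Fermat.Agent.H48.Normalize

/-!
# The lifting lemma
-/

set_option autoImplicit false
set_option maxHeartbeats 400000

namespace Fermat.Agent.H48

open CongruenceSubgroup ModularFormClass UpperHalfPlane EisensteinWeightOne

variable {N : ℕ} [NeZero N]

/-- The inclusion of the Hecke algebra into the endomorphism ring, as a ring hom. -/
noncomputable def heckeIncl (N : ℕ) [NeZero N] :
    heckeAlg N →+* Module.End ℂ (CuspForm (Gamma0 N) 2) where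
  toFun := Subtype.val
  map_one' := rfl
  map_mul' _ _ := rfl
  map_zero' := rfl
  map_add' _ _ := rfl

theorem heckeIncl_apply (T : heckeAlg N) :
    heckeIncl N T = (T : Module.End ℂ (CuspForm (Gamma0 N) 2)) := rfl

theorem heckeIncl_injective : Function.Injective (heckeIncl N) := Subtype.val_injective

theorem lifting_lemma (h : CuspForm.HasIntegralBasis N) {a : ℕ → ℤ}
    (heig : FormalHecke.IsEigensystem
      (fun ℓ => if ℓ ∣ N then 0 else ((chiNegThree ℓ : ℤ) : ℤ)) a)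
    (hreal : CuspForm.IsLatticeRealized N a) :
    ∃ (f : CuspForm (Gamma0 N) 2) (_ : f.IsNormalizedEigenform)
      (𝔪' : Ideal (integralClosure ℤ ℂ)), 𝔪'.IsMaximal ∧
      ((3 : ℕ) : integralClosure ℤ ℂ) ∈ 𝔪' ∧
      ∀ (ℓ : ℕ) (_ : ℓ.Prime) (_ : ¬ ℓ ∣ N),
        ∃ c : integralClosure ℤ ℂ, (c : ℂ) = ModularFormClass.qCoeff f ℓ ∧
          c - (a ℓ : integralClosure ℤ ℂ) ∈ 𝔪' := by
  classical
  obtain ⟨f₀, hf₀, af, haf, h3⟩ := hreal
  have hcong : ∀ n, ((af n : ℤ) : ZMod 3) = ((a n : ℤ) : ZMod 3) := by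
    intro n
    rw [← bridgeProduct_coeff_cast a n]
    exact ((ZMod.intCast_eq_intCast_iff_dvd_sub _ _ 3).mpr (h3 n)).symm
  have hone : ((af 1 : ℤ) : ZMod 3) = 1 := by
    rw [hcong, heig.1]
    simp
  have hprime : (annModThree f₀).IsPrime := isPrime_annModThree haf hcong heig
  have hfin : Module.Finite ℂ (CuspForm (Gamma0 N) 2) := finite_of_hasIntegralBasis h
  obtain ⟨v, χ, hv0, hχ, hker⟩ :=
    exists_eigenvector_of_isPrime (heckeIncl N) heckeIncl_injective (annModThree f₀)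
  -- integrality
  have hint : ∀ T : heckeAlg N, χ T ∈ integralClosure ℤ ℂ := by
    intro T
    exact map_isIntegral_int χ (isIntegral_heckeAlg h T)
  let χ' : heckeAlg N →+* integralClosure ℤ ℂ := χ.codRestrict (integralClosure ℤ ℂ) hint
  have hχ' : ∀ T, ((χ' T : integralClosure ℤ ℂ) : ℂ) = χ T := fun T => rfl
  letI : Algebra (heckeAlg N) (integralClosure ℤ ℂ) := χ'.toAlgebra
  have halg : ∀ T, algebraMap (heckeAlg N) (integralClosure ℤ ℂ) T = χ' T := fun T => rfl
  haveI : Algebra.IsIntegral (heckeAlg N) (integralClosure ℤ ℂ) := by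
    constructor
    intro z
    have hz : IsIntegral ℤ z := Algebra.IsIntegral.isIntegral z
    exact hz.tower_top
  obtain ⟨Q, -, hQprime, hQ⟩ := Ideal.exists_ideal_over_prime_of_isIntegral (annModThree f₀)
    (⊥ : Ideal (integralClosure ℤ ℂ)) (by
      intro T hT
      apply hker
      rw [Ideal.mem_comap, Ideal.mem_bot, halg] at hT
      rw [RingHom.mem_ker, ← hχ', hT]
      rfl)
  obtain ⟨𝔪', hmax, hle⟩ := Ideal.exists_le_maximal Q hQprime.ne_top
  have hmem : ∀ T : heckeAlg N, T ∈ annModThree f₀ → χ' T ∈ 𝔪' := by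
    intro T hT
    apply hle
    rw [← hQ] at hT
    exact hT
  -- the eigenform
  obtain ⟨f, hf, hfl⟩ := exists_normalized_eigenform hv0
    (fun ℓ => if hℓ : ℓ.Prime then
      (if hℓN : ℓ ∣ N then χ (CuspForm.heckeAlgebra.U hℓ hℓN (Set.notMem_empty ℓ))
        else χ (CuspForm.heckeAlgebra.T hℓ hℓN (Set.notMem_empty ℓ))) else 0)
    (by
      intro ℓ hℓ hℓN
      rw [dif_pos hℓ, dif_neg hℓN]
      exact hχ (CuspForm.heckeAlgebra.T hℓ hℓN (Set.notMem_empty ℓ)))
    (by
      intro q hq hqN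
      rw [dif_pos hq, dif_pos hqN]
      exact hχ (CuspForm.heckeAlgebra.U hq hqN (Set.notMem_empty q)))
  refine ⟨f, hf, 𝔪', hmax, ?_, ?_⟩
  · have := hmem _ (three_mem_annModThree haf hone)
    rwa [map_natCast] at this
  · intro ℓ hℓ hℓN
    refine ⟨χ' (CuspForm.heckeAlgebra.T hℓ hℓN (Set.notMem_empty ℓ)), ?_, ?_⟩
    · rw [hχ', hfl ℓ hℓ, dif_pos hℓ, dif_neg hℓN]
    · have := hmem _ (heckeT_sub_mem_annModThree (f₀ := f₀) haf hcong heig hℓ hℓN)
      rwa [map_sub, map_intCast] at this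

end Fermat.Agent.H48
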