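import Mathlib

set_option autoImplicit false

/-!
# P-S14 / C6 (UnitEigenStatement): interfaces of the two Mathlib-only slices

* `EigenModStatement` (slice U-A): reduction mod `p` of an endomorphism of a free `ℤ`-module of
  finite rank: an eigenvalue which is at most a simple root of the characteristic polynomial
  mod `p` has an eigenspace of dimension at most one on `Λ/pΛ`.
* `CyclicCharpolyStatement` (slice U-CYC): an endomorphism `T` of a free `ℤ`-module of rank
  `m - 1` which permutes cyclically `m` real-valued additive functionals of sum zero that separate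
  points, and which admits a "Minkowski element" (negative for all functionals but one), has
  characteristic polynomial `1 + X + ⋯ + X^(m-1)`.
-/

namespace Fermat.Agent.H48

/-- **U-A** (linear algebra mod `p`). -/
def EigenModStatement : Prop :=
  ∀ (Λ : Type) [AddCommGroup Λ] [Module.Free ℤ Λ] [Module.Finite ℤ Λ]
    (p : ℕ) [Fact p.Prime] (T : Λ →ₗ[ℤ] Λ) (a : ℤ),
    (T.charpoly.map (Int.castRingHom (ZMod p))).rootMultiplicity (a : ZMod p) ≤ 1 →
    ∀ x y : Λ, (∃ z : Λ, T x = a • x + p • z) → (∃ z : Λ, T y = a • y + p • z) →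
      (∀ z : Λ, y ≠ p • z) → ∃ (j : ℕ) (z : Λ), x = j • y + p • z

/-- **U-CYC** (characteristic polynomial of a "cyclic" lattice endomorphism). -/
def CyclicCharpolyStatement : Prop :=
  ∀ (Λ : Type) [AddCommGroup Λ] [Module.Free ℤ Λ] [Module.Finite ℤ Λ]
    (P : Type) [Fintype P] (T : Λ →ₗ[ℤ] Λ) (τ : Equiv.Perm P) (ℓ : P → Λ →+ ℝ),
    Module.finrank ℤ Λ + 1 = Fintype.card P →
    (∀ w w' : P, ∃ n : ℕ, (τ ^ n) w = w') →
    (∀ (w : P) (x : Λ), ℓ w (T x) = ℓ (τ w) x) →
    (∀ x : Λ, ∑ w, ℓ w x = 0) →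
    (∀ x : Λ, (∀ w, ℓ w x = 0) → x = 0) →
    ∀ (w₁ : P) (x₀ : Λ), (∀ w, w ≠ w₁ → ℓ w x₀ < 0) →
    T.charpoly = ∑ i ∈ Finset.range (Fintype.card P), (Polynomial.X : Polynomial ℤ) ^ i

end Fermat.Agent.H48
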