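import Mathlib
import Fermat.Agent.H13.S14Interfaces
import Fermat.Agent.H48.S14UnitInterfaces

set_option autoImplicit false
set_option maxSynthPendingDepth 3

open NumberField NumberField.Units NumberField.InfinitePlace

namespace Fermat.Agent.H48

variable (K : Type) [Field K] [NumberField K]

/-- The lattice of units modulo torsion, written additively. -/
abbrev UnitLat : Type := Additive ((𝓞 K)ˣ ⧸ torsion K)

/-- The action of a Galois automorphism on the units. -/
noncomputable def unitsAct (σ : K ≃ₐ[ℚ] K) : (𝓞 K)ˣ →* (𝓞 K)ˣ :=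
  Units.map ((Fermat.Agent.H13.sigmaO K σ : 𝓞 K ≃+* 𝓞 K) : 𝓞 K →* 𝓞 K)

@[simp] theorem coe_unitsAct (σ : K ≃ₐ[ℚ] K) (u : (𝓞 K)ˣ) :
    ((unitsAct K σ u : (𝓞 K)ˣ) : 𝓞 K) = Fermat.Agent.H13.sigmaO K σ (u : 𝓞 K) := rfl

theorem coe_coe_unitsAct (σ : K ≃ₐ[ℚ] K) (u : (𝓞 K)ˣ) :
    (((unitsAct K σ u : (𝓞 K)ˣ) : 𝓞 K) : K) = σ ((u : 𝓞 K) : K) := rfl

theorem torsion_le_comap_unitsAct (σ : K ≃ₐ[ℚ] K) :
    torsion K ≤ (torsion K).comap (unitsAct K σ) := by
  intro x hx
  rw [Subgroup.mem_comap]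
  exact MonoidHom.isOfFinOrder _ hx

/-- The action of a Galois automorphism on the lattice of units modulo torsion. -/
noncomputable def unitLatAct (σ : K ≃ₐ[ℚ] K) : UnitLat K →ₗ[ℤ] UnitLat K :=
  (MonoidHom.toAdditive (QuotientGroup.map (torsion K) (torsion K) (unitsAct K σ)
    (torsion_le_comap_unitsAct K σ))).toIntLinearMap

theorem unitLatAct_mk (σ : K ≃ₐ[ℚ] K) (u : (𝓞 K)ˣ) :
    unitLatAct K σ (Additive.ofMul (QuotientGroup.mk u)) =
      Additive.ofMul (QuotientGroup.mk (unitsAct K σ u)) := rfl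

/-- The logarithm at the place `w`, on units. -/
noncomputable def logUnit (w : InfinitePlace K) : Additive (𝓞 K)ˣ →+ ℝ :=
{ toFun := fun x ↦ mult w * Real.log (w ((x.toMul : (𝓞 K)ˣ) : 𝓞 K))
  map_zero' := by simp
  map_add' := fun _ _ ↦ by simp [Real.log_mul, mul_add] }

theorem logUnit_torsion (w : InfinitePlace K) (x : (𝓞 K)ˣ) (hx : x ∈ torsion K) :
    AddMonoidHom.toMultiplicativeRight (logUnit K w) x = 1 := by
  have h := (mem_torsion K).mp hx w
  change Multiplicative.ofAdd (mult w * Real.log (w ((x : 𝓞 K) : K))) = 1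
  rw [h, Real.log_one, mul_zero]
  rfl

/-- The logarithm at the place `w`, on the lattice of units modulo torsion. -/
noncomputable def logLat (w : InfinitePlace K) : UnitLat K →+ ℝ :=
  MonoidHom.toAdditiveLeft (QuotientGroup.lift (torsion K)
    (AddMonoidHom.toMultiplicativeRight (logUnit K w)) (logUnit_torsion K w))

theorem logLat_mk (w : InfinitePlace K) (u : (𝓞 K)ˣ) :
    logLat K w (Additive.ofMul (QuotientGroup.mk u)) = mult w * Real.log (w ((u : 𝓞 K) : K)) :=
  rfl


omit [NumberField K] in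
theorem unitLat_induction {motive : UnitLat K → Prop}
    (h : ∀ u : (𝓞 K)ˣ, motive (Additive.ofMul (QuotientGroup.mk u))) (x : UnitLat K) :
    motive x := by
  obtain ⟨u, hu⟩ := QuotientGroup.mk_surjective (s := torsion K) x.toMul
  have : x = Additive.ofMul (QuotientGroup.mk u) := by rw [hu]; rfl
  rw [this]
  exact h u

/-- The permutation of the infinite places induced by `σ`: `w ↦ w ∘ σ`. -/
noncomputable def placePerm (σ : K ≃ₐ[ℚ] K) : Equiv.Perm (InfinitePlace K) :=
  MulAction.toPerm σ⁻¹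

theorem placePerm_apply (σ : K ≃ₐ[ℚ] K) (w : InfinitePlace K) (x : K) :
    (placePerm K σ w) x = w (σ x) := by
  change (σ⁻¹ • w) x = w (σ x)
  rw [InfinitePlace.smul_apply]
  rfl

theorem mult_placePerm (σ : K ≃ₐ[ℚ] K) (w : InfinitePlace K) :
    mult (placePerm K σ w) = mult w := by
  change mult (σ⁻¹ • w) = mult w
  have h : IsReal (σ⁻¹ • w) ↔ IsReal w := InfinitePlace.isReal_smul_iff
  unfold mult
  by_cases hw : IsReal w
  · rw [if_pos hw, if_pos (h.mpr hw)]
  · rw [if_neg hw, if_neg (fun h' => hw (h.mp h'))]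

theorem placePerm_pow (σ : K ≃ₐ[ℚ] K) (n : ℕ) (w : InfinitePlace K) :
    ((placePerm K σ) ^ n) w = (σ⁻¹) ^ n • w := by
  change ((MulAction.toPermHom (K ≃ₐ[ℚ] K) (InfinitePlace K) σ⁻¹) ^ n) w = _
  rw [← map_pow]
  rfl

theorem logLat_unitLatAct (σ : K ≃ₐ[ℚ] K) (w : InfinitePlace K) (x : UnitLat K) :
    logLat K w (unitLatAct K σ x) = logLat K (placePerm K σ w) x := by
  induction x using unitLat_induction with
  | h u =>
    rw [unitLatAct_mk, logLat_mk, logLat_mk, coe_coe_unitsAct, placePerm_apply, mult_placePerm]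

theorem sum_logLat (x : UnitLat K) : ∑ w, logLat K w x = 0 := by
  induction x using unitLat_induction with
  | h u =>
    simp only [logLat_mk]
    exact sum_mult_mul_log u

theorem eq_zero_of_logLat (x : UnitLat K) (h : ∀ w, logLat K w x = 0) : x = 0 := by
  induction x using unitLat_induction with
  | h u =>
    have hu : u ∈ torsion K := by
      rw [mem_torsion]
      intro w
      have := h w
      rw [logLat_mk] at this
      exact dirichletUnitTheorem.mult_log_place_eq_zero.mp this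
    have : (QuotientGroup.mk u : (𝓞 K)ˣ ⧸ torsion K) = 1 := (QuotientGroup.eq_one_iff u).mpr hu
    rw [this]
    rfl

theorem finrank_unitLat : Module.finrank ℤ (UnitLat K) + 1 = Fintype.card (InfinitePlace K) := by
  rw [finrank_modTorsion, NumberField.Units.rank]
  have : 0 < Fintype.card (InfinitePlace K) := Fintype.card_pos
  omega

theorem placePerm_transitive [IsGalois ℚ K] (σ : K ≃ₐ[ℚ] K) (hσ : ∀ τ, τ ∈ Subgroup.zpowers σ)
    (w w' : InfinitePlace K) : ∃ n : ℕ, ((placePerm K σ) ^ n) w = w' := by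
  obtain ⟨g, hg⟩ := InfinitePlace.exists_smul_eq_of_comap_eq (k := ℚ) (w := w) (w' := w')
    (Subsingleton.elim _ _)
  have h1 : g ∈ Subgroup.zpowers σ⁻¹ := by
    rw [Subgroup.zpowers_inv]
    exact hσ g
  have h2 : g ∈ Submonoid.powers σ⁻¹ := by
    rwa [(isOfFinOrder_of_finite σ⁻¹).mem_powers_iff_mem_zpowers]
  obtain ⟨n, hn⟩ := h2
  change σ⁻¹ ^ n = g at hn
  refine ⟨n, ?_⟩
  rw [placePerm_pow, hn, hg]

theorem exists_minkowski (w₁ : InfinitePlace K) :
    ∃ x₀ : UnitLat K, ∀ w, w ≠ w₁ → logLat K w x₀ < 0 := by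
  obtain ⟨u, hu⟩ := dirichletUnitTheorem.exists_unit K w₁
  refine ⟨Additive.ofMul (QuotientGroup.mk u), fun w hw => ?_⟩
  rw [logLat_mk]
  refine mul_neg_of_pos_of_neg ?_ (hu w hw)
  rw [mult]; split_ifs <;> norm_num

/-- The characteristic polynomial of a generator of the Galois group acting on the lattice of
units modulo torsion. -/
theorem charpoly_unitLatAct (hC : CyclicCharpolyStatement) [IsGalois ℚ K] (σ : K ≃ₐ[ℚ] K)
    (hσ : ∀ τ, τ ∈ Subgroup.zpowers σ) :
    (unitLatAct K σ).charpoly =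
      ∑ i ∈ Finset.range (Fintype.card (InfinitePlace K)), (Polynomial.X : Polynomial ℤ) ^ i := by
  obtain ⟨x₀, hx₀⟩ := exists_minkowski K (Classical.arbitrary (InfinitePlace K))
  exact hC (UnitLat K) (InfinitePlace K) (unitLatAct K σ) (placePerm K σ) (logLat K)
    (finrank_unitLat K) (placePerm_transitive K σ hσ) (logLat_unitLatAct K σ) (sum_logLat K)
    (eq_zero_of_logLat K) _ x₀ hx₀

end Fermat.Agent.H48
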