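import Fermat.Agent.H48.S14UnitFinal
import Fermat.Agent.H7.EigenMod
import Fermat.Agent.H39.CyclicCharpoly

set_option autoImplicit false

/-!
# P-S14 / C6: `UnitEigenStatement`, unconditional

A unit of `ℚ(ζ_p)` (`p ≥ 5`) in the `ω²`-eigenspace modulo `p`-th powers is a power of the
cyclotomic unit `η` times a `p`-th power.

Assembly of
* `Fermat.Agent.H48.unitEigen_of_parts` (number-field side: Galois action on the units modulo
  torsion, logarithms at the infinite places, Minkowski unit, torsion step),
* `Fermat.Agent.H7.eigenMod` (eigenspaces modulo `p`),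
* `Fermat.Agent.H39.cyclicCharpoly` (characteristic polynomial of a cyclic lattice endomorphism).
-/

namespace Fermat.Agent.H48

/-- **S14 / C6**: `UnitEigenStatement`. -/
theorem unitEigen : Fermat.Agent.H13.UnitEigenStatement :=
  unitEigen_of_parts Fermat.Agent.H7.eigenMod Fermat.Agent.H39.cyclicCharpoly

end Fermat.Agent.H48
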