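import Mathlib
import Fermat.Agent.H48.S14UnitAct
import Fermat.Agent.H90.S14EtaEigen
import Fermat.Agent.H90.S14EtaNotPow

set_option autoImplicit false
set_option maxSynthPendingDepth 3

open NumberField NumberField.Units NumberField.InfinitePlace

namespace Fermat.Agent.H48

/-- The geometric sum `1 + X + ⋯ + X^(m-1)` has only simple roots modulo `p` when `0 < m < p`. -/
theorem rootMultiplicity_geom_sum_le_one (p : ℕ) [Fact p.Prime] (m : ℕ) (hm0 : 0 < m)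
    (hmp : m < p) (a : ZMod p) :
    ((∑ i ∈ Finset.range m, (Polynomial.X : Polynomial ℤ) ^ i).map
      (Int.castRingHom (ZMod p))).rootMultiplicity a ≤ 1 := by
  have hmap : (∑ i ∈ Finset.range m, (Polynomial.X : Polynomial ℤ) ^ i).map
      (Int.castRingHom (ZMod p)) = ∑ i ∈ Finset.range m, (Polynomial.X : Polynomial (ZMod p)) ^ i := by
    simp [Polynomial.map_sum]
  rw [hmap]
  have hm : ((m : ℕ) : ZMod p) ≠ 0 := by
    rw [Ne, ZMod.natCast_eq_zero_iff]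
    intro h
    exact absurd (Nat.le_of_dvd hm0 h) (not_le.mpr hmp)
  have hsep : ((Polynomial.X : Polynomial (ZMod p)) ^ m - 1).Separable :=
    Polynomial.X_pow_sub_one_separable_iff.mpr hm
  have hprod : (∑ i ∈ Finset.range m, (Polynomial.X : Polynomial (ZMod p)) ^ i) *
      (Polynomial.X - 1) = Polynomial.X ^ m - 1 := geom_sum_mul _ _
  have hne : (∑ i ∈ Finset.range m, (Polynomial.X : Polynomial (ZMod p)) ^ i) *
      (Polynomial.X - 1) ≠ 0 := by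
    rw [hprod]
    exact hsep.ne_zero
  have h1 := Polynomial.rootMultiplicity_mul (x := a) hne
  have h2 := Polynomial.rootMultiplicity_le_one_of_separable hsep a
  rw [hprod] at h1
  omega



variable (K : Type) [Field K] [NumberField K]

/-- `a` is an eigen-unit of type `ω²` for `(σ, k)`, modulo `p`-th powers. -/
def EigenU (p : ℕ) (σ : K ≃ₐ[ℚ] K) (k : ℕ) (a : (𝓞 K)ˣ) : Prop :=
  ∃ v : (𝓞 K)ˣ, unitsAct K σ a = a ^ (k ^ 2) * v ^ p

variable {K}

theorem EigenU.mul {p : ℕ} {σ : K ≃ₐ[ℚ] K} {k : ℕ} {a b : (𝓞 K)ˣ}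
    (ha : EigenU K p σ k a) (hb : EigenU K p σ k b) : EigenU K p σ k (a * b) := by
  obtain ⟨v, hv⟩ := ha
  obtain ⟨w, hw⟩ := hb
  refine ⟨v * w, ?_⟩
  rw [map_mul, hv, hw, mul_pow, mul_pow]
  exact mul_mul_mul_comm _ _ _ _

theorem EigenU.inv {p : ℕ} {σ : K ≃ₐ[ℚ] K} {k : ℕ} {a : (𝓞 K)ˣ}
    (ha : EigenU K p σ k a) : EigenU K p σ k a⁻¹ := by
  obtain ⟨v, hv⟩ := ha
  refine ⟨v⁻¹, ?_⟩
  rw [map_inv, hv, mul_inv, inv_pow, inv_pow]

theorem EigenU.pow {p : ℕ} {σ : K ≃ₐ[ℚ] K} {k : ℕ} {a : (𝓞 K)ˣ}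
    (ha : EigenU K p σ k a) (n : ℕ) : EigenU K p σ k (a ^ n) := by
  obtain ⟨v, hv⟩ := ha
  refine ⟨v ^ n, ?_⟩
  rw [map_pow, hv, mul_pow, ← pow_mul, ← pow_mul, ← pow_mul, ← pow_mul, mul_comm n (k ^ 2),
    mul_comm n p]

theorem EigenU.pth_pow (p : ℕ) (σ : K ≃ₐ[ℚ] K) (k : ℕ) (w : (𝓞 K)ˣ) :
    EigenU K p σ k (w ^ p) := by
  refine ⟨unitsAct K σ w * (w ^ (k ^ 2))⁻¹, ?_⟩
  rw [map_pow, mul_pow, inv_pow, ← pow_mul, ← pow_mul, mul_comm (k ^ 2) p, mul_left_comm,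
    mul_inv_cancel, mul_one]

theorem EigenU.of_sigmaO {p : ℕ} {σ : K ≃ₐ[ℚ] K} {k : ℕ} {a : (𝓞 K)ˣ}
    (h : ∃ v : (𝓞 K)ˣ, Fermat.Agent.H13.sigmaO K σ (a : 𝓞 K) = (a : 𝓞 K) ^ (k ^ 2) * (v : 𝓞 K) ^ p) :
    EigenU K p σ k a := by
  obtain ⟨v, hv⟩ := h
  refine ⟨v, Units.ext ?_⟩
  rw [coe_unitsAct, hv]
  push_cast
  rfl

omit [NumberField K] in
theorem modEq_of_pow_eq {ζ : K} {p : ℕ} (hp : 0 < p) (hζ : IsPrimitiveRoot ζ p) {x y : ℕ}
    (h : ζ ^ x = ζ ^ y) : x ≡ y [MOD p] := by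
  have hmod : ∀ n : ℕ, ζ ^ (n % p) = ζ ^ n := fun n => by
    conv_rhs => rw [← Nat.mod_add_div n p, pow_add, pow_mul, hζ.pow_eq_one, one_pow, mul_one]
  exact hζ.pow_inj (Nat.mod_lt _ hp) (Nat.mod_lt _ hp) (by rw [hmod, hmod, h])

omit [NumberField K] in
theorem isOfFinOrder_coe_of_mem_torsion {s : (𝓞 K)ˣ} (hs : s ∈ torsion K) :
    IsOfFinOrder (((s : 𝓞 K) : K)) := by
  have h1 : IsOfFinOrder s := (CommGroup.mem_torsion _).mp hs
  exact ((algebraMap (𝓞 K) K : 𝓞 K →* K).comp (Units.coeHom (𝓞 K))).isOfFinOrder h1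

theorem sq_coe_of_mem_torsion {p : ℕ} [Fact p.Prime] (hp2 : p ≠ 2) [IsCyclotomicExtension {p} ℚ K]
    {ζ : K} (hζ : IsPrimitiveRoot ζ p) {s : (𝓞 K)ˣ} (hs : s ∈ torsion K) :
    ∃ a : ℕ, (((s : 𝓞 K) : K)) ^ 2 = ζ ^ a := by
  have hodd : Odd p := (Fact.out : p.Prime).odd_of_ne_two hp2
  obtain ⟨r, -, hr | hr⟩ :=
    hζ.exists_pow_or_neg_mul_pow_of_isOfFinOrder hodd (isOfFinOrder_coe_of_mem_torsion hs)
  · exact ⟨r * 2, by rw [hr, pow_mul]⟩
  · exact ⟨r * 2, by rw [hr, neg_sq, pow_mul]⟩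

/-- **Torsion step**: a root of unity which is an eigen-unit of type `ω²` for `σ : ζ ↦ ζ^k`,
`k ≢ 1`, is a `p`-th power. -/
theorem torsion_eigen_pow {p : ℕ} [Fact p.Prime] (hp2 : p ≠ 2) [IsCyclotomicExtension {p} ℚ K]
    {ζ : K} (hζ : IsPrimitiveRoot ζ p) (σ : K ≃ₐ[ℚ] K) (k : ℕ) (hk : σ ζ = ζ ^ k)
    (hk1 : (k : ZMod p) ≠ 1) (t : (𝓞 K)ˣ) (ht : t ∈ torsion K) (h : EigenU K p σ k t) :
    ∃ r : (𝓞 K)ˣ, t = r ^ p := by
  have hodd : Odd p := (Fact.out : p.Prime).odd_of_ne_two hp2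
  have hp0 : p ≠ 0 := (Fact.out : p.Prime).ne_zero
  obtain ⟨v, hv⟩ := h
  -- `v` is torsion
  have hvp : v ^ p ∈ torsion K := by
    have h1 : unitsAct K σ t ∈ torsion K := torsion_le_comap_unitsAct K σ ht
    have h2 : (t ^ (k ^ 2))⁻¹ ∈ torsion K := Subgroup.inv_mem _ (Subgroup.pow_mem _ ht _)
    have h3 : v ^ p = (t ^ (k ^ 2))⁻¹ * unitsAct K σ t := by
      rw [hv, ← mul_assoc, inv_mul_cancel, one_mul]
    rw [h3]
    exact Subgroup.mul_mem _ h2 h1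
  have hvt : v ∈ torsion K := by
    rw [torsion, CommGroup.mem_torsion] at hvp ⊢
    exact hvp.of_pow hp0
  obtain ⟨a, ha⟩ := sq_coe_of_mem_torsion hp2 hζ ht
  obtain ⟨b, hb⟩ := sq_coe_of_mem_torsion hp2 hζ hvt
  -- the equation in `K`
  have hK : σ ((t : 𝓞 K) : K) = ((t : 𝓞 K) : K) ^ (k ^ 2) * ((v : 𝓞 K) : K) ^ p := by
    rw [← coe_coe_unitsAct, hv]
    push_cast
    rfl
  have hsq : ζ ^ (k * a) = ζ ^ (a * k ^ 2) := by
    have e1 : σ (((t : 𝓞 K) : K) ^ 2) = ζ ^ (k * a) := by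
      rw [ha, map_pow, hk, ← pow_mul]
    have e2 : σ (((t : 𝓞 K) : K) ^ 2) = ζ ^ (a * k ^ 2) := by
      have h5 : (((t : 𝓞 K) : K) ^ (k ^ 2) * ((v : 𝓞 K) : K) ^ p) ^ 2 =
          (((t : 𝓞 K) : K) ^ 2) ^ (k ^ 2) * ((((v : 𝓞 K) : K)) ^ 2) ^ p := by ring
      rw [map_pow, hK, h5, ha, hb, ← pow_mul, ← pow_mul, mul_comm b p, pow_mul ζ p b,
        hζ.pow_eq_one, one_pow, mul_one]
    rw [← e1, e2]
  have hmod : (k * a : ℕ) ≡ (a * k ^ 2 : ℕ) [MOD p] :=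
    modEq_of_pow_eq (Fact.out : p.Prime).pos hζ hsq
  have hz : ((k * a : ℕ) : ZMod p) = ((a * k ^ 2 : ℕ) : ZMod p) :=
    (ZMod.natCast_eq_natCast_iff _ _ _).mpr hmod
  have hk0 : (k : ZMod p) ≠ 0 := by
    rw [Ne, ZMod.natCast_eq_zero_iff]
    exact Fermat.Agent.H90.not_dvd_of_sigma hζ σ k hk
  have ha0 : (a : ZMod p) = 0 := by
    push_cast at hz
    have h1 : (a : ZMod p) * ((k : ZMod p) * ((k : ZMod p) - 1)) = 0 := by
      linear_combination -hz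
    rcases mul_eq_zero.mp h1 with h2 | h2
    · exact h2
    · rcases mul_eq_zero.mp h2 with h3 | h3
      · exact absurd h3 hk0
      · exact absurd (sub_eq_zero.mp h3) hk1
  have hpa : p ∣ a := (ZMod.natCast_eq_zero_iff _ _).mp ha0
  have ht2K : (((t : 𝓞 K) : K)) ^ 2 = 1 := by
    obtain ⟨c, rfl⟩ := hpa
    rw [ha, pow_mul, hζ.pow_eq_one, one_pow]
  have ht2 : t ^ 2 = 1 := by
    apply Units.ext
    apply RingOfIntegers.ext
    push_cast
    exact ht2K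
  obtain ⟨q, hq⟩ := hodd
  refine ⟨t, ?_⟩
  rw [hq, pow_succ, pow_mul, ht2, one_pow, one_mul]


variable (K)

theorem card_infinitePlace_lt (p : ℕ) [Fact p.Prime] [IsCyclotomicExtension {p} ℚ K] :
    Fintype.card (InfinitePlace K) < p := by
  have h1 := InfinitePlace.card_eq_nrRealPlaces_add_nrComplexPlaces (K := K)
  have h2 := InfinitePlace.card_add_two_mul_card_eq_rank (K := K)
  have h3 : Module.finrank ℚ K = p - 1 := by
    rw [IsCyclotomicExtension.finrank K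
      (Polynomial.cyclotomic.irreducible_rat (Fact.out : p.Prime).pos),
      Nat.totient_prime Fact.out]
  have hp : 2 ≤ p := (Fact.out : p.Prime).two_le
  omega

variable {K}

omit [NumberField K] in
theorem unitLat_mk_eq_iff (a b : (𝓞 K)ˣ) :
    (Additive.ofMul (QuotientGroup.mk a) : UnitLat K) = Additive.ofMul (QuotientGroup.mk b) ↔
      a⁻¹ * b ∈ torsion K := by
  rw [Additive.ofMul.apply_eq_iff_eq]
  exact QuotientGroup.eq

omit [NumberField K] in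
theorem unitLat_smul_mk (n : ℕ) (a : (𝓞 K)ˣ) :
    n • (Additive.ofMul (QuotientGroup.mk a) : UnitLat K) =
      Additive.ofMul (QuotientGroup.mk (a ^ n)) := rfl

omit [NumberField K] in
theorem unitLat_add_mk (a b : (𝓞 K)ˣ) :
    (Additive.ofMul (QuotientGroup.mk a) : UnitLat K) + Additive.ofMul (QuotientGroup.mk b) =
      Additive.ofMul (QuotientGroup.mk (a * b)) := rfl

theorem EigenU.lat {p : ℕ} {σ : K ≃ₐ[ℚ] K} {k : ℕ} {a : (𝓞 K)ˣ} (h : EigenU K p σ k a) :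
    ∃ z : UnitLat K, unitLatAct K σ (Additive.ofMul (QuotientGroup.mk a)) =
      ((k ^ 2 : ℕ) : ℤ) • (Additive.ofMul (QuotientGroup.mk a) : UnitLat K) + p • z := by
  obtain ⟨v, hv⟩ := h
  refine ⟨Additive.ofMul (QuotientGroup.mk v), ?_⟩
  rw [unitLatAct_mk, hv, natCast_zsmul, unitLat_smul_mk, unitLat_smul_mk, unitLat_add_mk]

/-- **C6 from the two Mathlib-only slices.** -/
theorem unitEigen_of_parts (hA : EigenModStatement) (hC : CyclicCharpolyStatement) :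
    Fermat.Agent.H13.UnitEigenStatement := by
  intro p _ hp5 K _ _ _ ζ hζ u hu
  have hpp : p.Prime := Fact.out
  have hp2 : p ≠ 2 := by omega
  have : IsGalois ℚ K := IsCyclotomicExtension.isGalois {p} ℚ K
  -- a generator of the Galois group
  obtain ⟨γ, hγ⟩ := IsCyclic.exists_generator (α := (ZMod p)ˣ)
  let e := IsCyclotomicExtension.Rat.galEquivZMod p K
  obtain ⟨σ, hσ⟩ : ∃ σ : K ≃ₐ[ℚ] K, e σ = γ := ⟨e.symm γ, e.apply_symm_apply γ⟩
  have hσgen : ∀ τ : K ≃ₐ[ℚ] K, τ ∈ Subgroup.zpowers σ := by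
    intro τ
    obtain ⟨n, hn⟩ := Subgroup.mem_zpowers_iff.mp (hγ (e τ))
    refine Subgroup.mem_zpowers_iff.mpr ⟨n, e.injective ?_⟩
    rw [map_zpow, hσ, hn]
  set k : ℕ := (γ : ZMod p).val with hkdef
  have hk : σ ζ = ζ ^ k := by
    have := IsCyclotomicExtension.Rat.galEquivZMod_apply_of_pow_eq p K σ hζ.pow_eq_one
    rw [this]
    change ζ ^ ((e σ : (ZMod p)ˣ) : ZMod p).val = ζ ^ k
    rw [hσ]
  have hk1 : (k : ZMod p) ≠ 1 := by
    rw [hkdef, ZMod.natCast_zmod_val]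
    intro h1
    have hγ1 : γ = 1 := Units.ext h1
    -- then the unit group of `ZMod p` is trivial, impossible for `p ≥ 5`
    have hall : ∀ x : (ZMod p)ˣ, x = 1 := by
      intro x
      obtain ⟨n, hn⟩ := Subgroup.mem_zpowers_iff.mp (hγ x)
      rw [← hn, hγ1, one_zpow]
    have hcard : Fintype.card (ZMod p)ˣ = p - 1 := ZMod.card_units p
    have hsub : Fintype.card (ZMod p)ˣ ≤ 1 :=
      Fintype.card_le_one_iff.mpr fun a b => by rw [hall a, hall b]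
    omega
  -- the characteristic polynomial and the multiplicity of the eigenvalue
  have hchar := charpoly_unitLatAct K hC σ hσgen
  have hroot : ((unitLatAct K σ).charpoly.map (Int.castRingHom (ZMod p))).rootMultiplicity
      ((((k ^ 2 : ℕ) : ℤ)) : ZMod p) ≤ 1 := by
    rw [hchar]
    exact rootMultiplicity_geom_sum_le_one p _ Fintype.card_pos (card_infinitePlace_lt K p) _
  -- the unit `η`
  obtain ⟨η, hη⟩ := Fermat.Agent.H90.etaUnitStatement p hp5 K ζ hζ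
  have hηeig : EigenU K p σ k η :=
    EigenU.of_sigmaO (by rw [hη]; exact Fermat.Agent.H90.etaInt_eigen hζ hp5 σ k hk)
  have hueig : EigenU K p σ k u := EigenU.of_sigmaO (hu σ k hk)
  -- `η` is not a `p`-th power modulo torsion
  have hy0 : ∀ z : UnitLat K, (Additive.ofMul (QuotientGroup.mk η) : UnitLat K) ≠ p • z := by
    intro z hz
    induction z using unitLat_induction with
    | h w =>
      rw [unitLat_smul_mk, unitLat_mk_eq_iff] at hz
      -- `η⁻¹ * w^p` is torsion and an eigen-unit, hence a `p`-th power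
      obtain ⟨r, hr⟩ := torsion_eigen_pow hp2 hζ σ k hk hk1 _ hz
        (hηeig.inv.mul (EigenU.pth_pow p σ k w))
      apply Fermat.Agent.H90.etaNotPowStatement p hp5 K ζ hζ
      refine ⟨((w * r⁻¹ : (𝓞 K)ˣ) : 𝓞 K), ?_⟩
      rw [← hη, ← Units.val_pow_eq_pow_val, mul_pow, inv_pow, ← hr, mul_inv, inv_inv,
        mul_left_comm, mul_inv_cancel, mul_one]
  obtain ⟨j, z, hj⟩ := hA (UnitLat K) p (unitLatAct K σ) _ hroot
    (Additive.ofMul (QuotientGroup.mk u)) (Additive.ofMul (QuotientGroup.mk η))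
    hueig.lat hηeig.lat hy0
  induction z using unitLat_induction with
  | h w =>
    rw [unitLat_smul_mk, unitLat_smul_mk, unitLat_add_mk, unitLat_mk_eq_iff] at hj
    -- `u⁻¹ * (η^j * w^p)` is torsion and an eigen-unit, hence a `p`-th power
    obtain ⟨r, hr⟩ := torsion_eigen_pow hp2 hζ σ k hk hk1 _ hj
      (hueig.inv.mul ((hηeig.pow j).mul (EigenU.pth_pow p σ k w)))
    refine ⟨j, w * r⁻¹, ?_⟩
    have h1 : u = η ^ j * (w * r⁻¹) ^ p := by
      have h2 : (r ^ p)⁻¹ = (η ^ j * w ^ p)⁻¹ * u := by rw [← hr, mul_inv_rev, inv_inv]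
      rw [mul_pow, inv_pow, h2, ← mul_assoc, mul_inv_cancel_left]
    rw [← hη, ← Units.val_pow_eq_pow_val, ← Units.val_pow_eq_pow_val, ← Units.val_mul, ← h1]

end Fermat.Agent.H48
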